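import Fermat.Agent.MR.Glue.Defs
import Fermat.Agent.DR.Hecke.DR3
import Fermat.Agent.DR.Final

/-!
# S43 / GA : CONTRACT  (first half of Mazur's principle, kernel form)

Level `M * q`, `q` prime, `q ∤ M`, `4 ∣ M` (neat), `A` a valuation subring of `ℚ̄` over `q`, `p ≥ 5` a prime `≠ q`.
`V(n) = KV Kbar (FN n) p`.  `θ = (a ℓ)` for the primes `ℓ ∤ n`, `ℓ ∉ S` (`S` a finite exceptional set, `p ∈ S`).

* `gEigenKV n p S a` : the generalised `θ`-eigenspace of `V(n)` (`MR.Glue.eigenKV n p S a` is the eigenspace);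
* `NonEis n p S a`   : `θ` is not Eisenstein : `a ℓ ≢ ℓ + 1 (mod p)` for one `ℓ`;
* `CoreStatement`    : **if `θ` does not occur at level `M`** (`eigenKV M p (insert q S) a = ⊥`), every `x` of the generalised
                       `θ`-eigenspace of `V(M q)` which is fixed by the inertia group of `A` is in `K_tor`
                       (`DR.Gal.KtorC A M q hq hqM hA p`);
* `FrobStatement`    : ... hence `σ x = - q w_q x` for every Frobenius element `σ` at `A`  (kernel form `(B*)`);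
* `frob_of_core`     : `CoreStatement → FrobStatement` (DR2 at the neat level).

`w_q = DR.Hecke.wKV M q hq hqM p` : `wKV_wKV` (involution), `wKV_smul` (Galois), `wKV_heckeT` (Hecke),
`DR.Hecke.interface_wKV_eq` (comparison with `DR.wKV`).
-/

set_option autoImplicit false
set_option linter.unusedSectionVars false
set_option linter.style.haveILetI false

noncomputable section

namespace Fermat.Agent.S43.GA

open AlgebraicCurve ModularCurve Fermat.Agent.S24 Fermat.Agent.GAL Fermat.Agent.GAL.Hecke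
  Fermat.Agent.GAL.Gauss Fermat.Agent.DR.Gal Fermat.Agent.DR

/-- the generalised `θ`-eigenspace of `V(n)`. -/
def gEigenKV (n p : ℕ) [NeZero n] (S : Finset ℕ) (a : ℕ → ℤ) : Set (KV Kbar (FN n) p) :=
  {x | ∀ (ℓ : ℕ) [NeZero ℓ], ℓ.Prime → ¬ ℓ ∣ n → ℓ ∉ S →
    ∃ k : ℕ, (fun y => heckeT Kbar n ℓ p y - a ℓ • y)^[k] x = 0}

theorem mem_gEigenKV {n p : ℕ} [NeZero n] {S : Finset ℕ} {a : ℕ → ℤ} {x : KV Kbar (FN n) p} :
    x ∈ gEigenKV n p S a ↔ ∀ (ℓ : ℕ) [NeZero ℓ], ℓ.Prime → ¬ ℓ ∣ n → ℓ ∉ S →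
      ∃ k : ℕ, (fun y => heckeT Kbar n ℓ p y - a ℓ • y)^[k] x = 0 := Iff.rfl

/-- eigenvectors are generalised eigenvectors. -/
theorem eigenKV_subset_gEigenKV (n p : ℕ) [NeZero n] (S : Finset ℕ) (a : ℕ → ℤ) :
    (MR.Glue.eigenKV n p S a : Set (KV Kbar (FN n) p)) ⊆ gEigenKV n p S a := by
  intro x hx ℓ _ h1 h2 h3
  refine ⟨1, ?_⟩
  rw [Function.iterate_one]
  show heckeT Kbar n ℓ p x - a ℓ • x = 0
  rw [hx ℓ h1 h2 h3, sub_self]

/-- `θ` is not Eisenstein. -/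
def NonEis (n p : ℕ) (S : Finset ℕ) (a : ℕ → ℤ) : Prop :=
  ∃ ℓ : ℕ, ℓ.Prime ∧ ¬ ℓ ∣ n ∧ ℓ ∉ S ∧ ¬ (p : ℤ) ∣ a ℓ - ℓ - 1

/-- **GA-core.** -/
def CoreStatement : Prop :=
  ∀ (A : ValuationSubring Kbar) (M q : ℕ) [NeZero M] [NeZero q] (hq : q.Prime) (hqM : ¬ q ∣ M)
    (hA : A.LiesOverPrime q) (_h4 : 4 ∣ M) (p : ℕ) [NeZero p] (_hp : p.Prime) (_hp5 : 5 ≤ p)
    (_hpq : p ≠ q) (S : Finset ℕ) (_hpS : p ∈ S) (a : ℕ → ℤ) (_hne : NonEis (M * q) p S a)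
    (_hH : MR.Glue.eigenKV M p (insert q S) a = ⊥)
    (x : KV Kbar (FN (M * q)) p) (_hx : x ∈ gEigenKV (M * q) p S a)
    (_hI : ∀ τ ∈ A.inertiaSubgroupIn ℚ, τ • x = x),
    x ∈ KtorC A M q hq hqM hA p

/-- **GA, kernel form `(B*)`.** -/
def FrobStatement : Prop :=
  ∀ (A : ValuationSubring Kbar) (M q : ℕ) [NeZero M] [NeZero q] (hq : q.Prime) (hqM : ¬ q ∣ M)
    (_hA : A.LiesOverPrime q) (_h4 : 4 ∣ M) (p : ℕ) [NeZero p] (_hp : p.Prime) (_hp5 : 5 ≤ p)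
    (_hpq : p ≠ q) (S : Finset ℕ) (_hpS : p ∈ S) (a : ℕ → ℤ) (_hne : NonEis (M * q) p S a)
    (_hH : MR.Glue.eigenKV M p (insert q S) a = ⊥)
    (x : KV Kbar (FN (M * q)) p) (_hx : x ∈ gEigenKV (M * q) p S a)
    (_hI : ∀ τ ∈ A.inertiaSubgroupIn ℚ, τ • x = x)
    (σ : GQ) (_hσ : A.IsFrobeniusAt σ q),
    σ • x + q • Hecke.wKV M q hq hqM p x = 0

/-- DR2 at a neat level, exponent `p`. -/
theorem frob_of_mem_KtorC (A : ValuationSubring Kbar) (M q : ℕ) [NeZero M] [NeZero q] (hq : q.Prime)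
    (hqM : ¬ q ∣ M) (hA : A.LiesOverPrime q) (h4 : 4 ∣ M) (p : ℕ) (hp : p.Prime) (hpq : p ≠ q)
    (x : KV Kbar (FN (M * q)) p) (hx : x ∈ KtorC A M q hq hqM hA p)
    (σ : GQ) (hσ : A.IsFrobeniusAt σ q) :
    σ • x + q • Hecke.wKV M q hq hqM p x = 0 := by
  haveI : Fact q.Prime := ⟨hq⟩
  haveI := Hecke.charP_residueField A hq hA
  haveI := perfectRing_residueField q A
  have h := Final.drGeomAll_of_neat M q hq hqM (Or.inl h4) hp hpq.symm A hA 1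
  rw [pow_one] at h
  have key := frob_of_DRGeom A M q hq hqM hA h σ hσ hx
  rwa [Hecke.interface_wKV_eq hq hqM] at key

theorem frob_of_core (h : CoreStatement) : FrobStatement :=
  fun A M q _ _ hq hqM hA h4 p _ hp hp5 hpq S hpS a hne hH x hx hI σ hσ =>
    frob_of_mem_KtorC A M q hq hqM hA h4 p hp hpq x
      (h A M q hq hqM hA h4 p hp hp5 hpq S hpS a hne hH x hx hI) σ hσ

end Fermat.Agent.S43.GA
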