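import Fermat.Agent.S43.GA.SignAbs
import Fermat.Agent.MR.Glue.Frob
import Fermat.Agent.MR.Glue.Front
import Fermat.Agent.S43.Loc.Gen
import Fermat.Agent.S56.F.LF.FrobEll
import Fermat.Agent.S41.Dual.Frob

/-!
# S43 / GA / Sign : the end of (GA-K) at the level of modules: the sign, `q ≡ 1 (mod p)`, Mazur's principle

Level `M * q` (`q` prime, `q ∤ M`, `q ≠ p`), `X ≤ V_p(F(M q))` a subgroup (in practice the generalised eigenspace of the system of
eigenvalues of the Frey curve), stable under `G_ℚ` and `w_q`, containing the eigenspace `eigenKV (M * q) p S a ≠ ⊥`, and such that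
every nonzero subgroup of `X` stable under the `T_ℓ` contains a nonzero eigenvector (`Socle`).

INPUT (`GAHyp`, = the output of the geometric core of GA + DR2): for every place `A ∣ q` and every Frobenius element `φ` at `A`,
`φ x + q w_q x = 0` for all `x ∈ X` fixed by the inertia group of `A`.  `E[p]` is unramified at `q`.

OUTPUT (`ga_sign`) : there is `ε = ± 1`, independent of `A` and `φ`, with
* `p ∣ q - 1`;
* `φ e = ε e` for all `e ∈ E[p]` (MAZUR'S PRINCIPLE: `ρ̄(Frob_q)` is a scalar);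
* `w_q = - ε` on ALL of `X`;
* `φ x = ε x` for all inertia-fixed `x ∈ X`;
* (`ga_dec`) for every `d` in the decomposition group of `A` there is `η = ± 1` with `d x = η x` for all inertia-fixed `x ∈ X` and
  `d e = η e` for all `e ∈ E[p]`.
-/

set_option autoImplicit false
set_option linter.unusedSectionVars false

namespace Fermat.Agent.S43.GA

open AlgebraicCurve ModularCurve Fermat.Agent.S24 Fermat.Agent.GAL Fermat.Agent.DR Fermat.Agent.MR.Glue
  Fermat.Agent.MR.E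
open WeierstrassCurve WeierstrassCurve.Affine WeierstrassCurve.Affine.Point

section defs

variable (M q p : ℕ) [NeZero M] [NeZero q]

/-- **The output of the geometric core of GA** (with DR2), for a subgroup `X`. -/
def GAHyp (X : AddSubgroup (KV Kbar (FN (M * q)) p)) : Prop :=
  ∀ A : ValuationSubring Kbar, A.LiesOverPrime q → ∀ φ : GQ, A.IsFrobeniusAt φ q →
    ∀ x ∈ X, (∀ τ ∈ A.inertiaSubgroupIn ℚ, τ • x = x) → φ • x + q • wKV M q p x = 0

/-- every nonzero Hecke-stable subgroup of `X` contains a nonzero eigenvector. -/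
def Socle (n p : ℕ) [NeZero n] (S : Finset ℕ) (a : ℕ → ℤ) (X : AddSubgroup (KV Kbar (FN n) p)) : Prop :=
  ∀ U : AddSubgroup (KV Kbar (FN n) p), U ≤ X → U ≠ ⊥ →
    (∀ (ℓ : ℕ) [NeZero ℓ], ℓ.Prime → ¬ ℓ ∣ n → ℓ ∉ S → ∀ x ∈ U, heckeT Kbar n ℓ p x ∈ U) →
    ∃ x ∈ U, x ≠ 0 ∧ x ∈ eigenKV n p S a

end defs

variable (P : FreyPackage)
  (hirr : GaloisRepIsIrreducible (K := AlgebraicClosure ℚ) ℚ P.freyCurve P.p)
  (W : WeierstrassCurve ℤ) (hW : W.IsIntegralModelOf P.freyCurve) (S : Finset ℕ)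
  (M q : ℕ) [NeZero M] [NeZero q] (hq : q.Prime) (hqM : ¬ q ∣ M) (hqp : q ≠ P.p)
  (hunr : P.GaloisRepUnramifiedAt q)
  (X : AddSubgroup (KV Kbar (FN (M * q)) P.p))
  (hXeig : eigenKV (M * q) P.p S W.apOfModel ≤ X)
  (hGA : GAHyp M q P.p X)

include hirr hW hq hqM hunr hXeig hGA in
/-- a sign `δ` of `w_q` which occurs in the eigenspace determines the Frobenius on `E[p]`. -/
theorem frob_Ep_of_eigenW (δ : ℤ) (hδ : eigenW M q P.p S W.apOfModel δ ≠ ⊥)
    (A : ValuationSubring Kbar) (hA : A.LiesOverPrime q) (φ : GQ) (hφ : A.IsFrobeniusAt φ q)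
    (e : Ep P) : φ • e = (-((q : ℤ) * δ)) • e := by
  have hdeg := Hecke.kvDegen (M := M) (q := q) hq hqM
  obtain ⟨ι, hinj, hgal, hιU⟩ := blrCopy P hirr (M * q) W hW S
    (eigenW M q P.p S W.apOfModel δ) hδ (fun x hx => hx.1) (by
      rintro σ x ⟨hx, hx'⟩
      exact ⟨eigenKV_galois _ _ σ x hx, by rw [hdeg.w_galois, hx', smul_comm]⟩)
  apply hinj
  have h1 := hGA A hA φ hφ (ι e) (hXeig (hιU e).1) (fun τ hτ => by
    rw [← hgal]
    exact congrArg ι (hunr A hA τ hτ e))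
  rw [(hιU e).2] at h1
  rw [hgal, map_zsmul, neg_zsmul, mul_zsmul, natCast_zsmul]
  exact eq_neg_of_add_eq_zero_left h1

/-- `E[p] ≠ 0`, in the form: an integer killing `E[p]` is divisible by `p`. -/
theorem dvd_of_zsmul_Ep (n : ℤ) (h : ∀ e : Ep P, n • e = 0) : (P.p : ℤ) ∣ n := by
  by_contra hn
  have hcop : IsCoprime (P.p : ℤ) n :=
    ((Nat.prime_iff_prime_int.mp P.pp).coprime_iff_not_dvd).mpr hn
  obtain ⟨u, v, huv⟩ := hcop
  obtain ⟨e, he⟩ := dim_Ep P 0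
  apply he 0
  rw [smul_zero]
  have h1 : (P.p : ℤ) • e = 0 := by
    rw [natCast_zsmul]
    exact Subtype.ext (Ep_nsmul P e)
  calc e = (1 : ℤ) • e := (one_zsmul e).symm
    _ = (u * P.p + v * n) • e := by rw [huv]
    _ = 0 := by rw [add_zsmul, mul_zsmul, mul_zsmul, h1, h e, smul_zero, smul_zero, add_zero]

include hq hqp in
theorem not_dvd_q : ¬ (P.p : ℤ) ∣ (q : ℤ) := by
  intro h
  have h1 : P.p ∣ q := by exact_mod_cast h
  exact hqp ((Nat.prime_dvd_prime_iff_eq P.pp hq).mp h1).symm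

/-- in a group killed by `p`, the integer multiples only depend on the class modulo `p`. -/
theorem zsmul_congr_of_dvd {Y : Type*} [AddCommGroup Y] {p : ℕ} {y : Y} (hy : p • y = 0) {m n : ℤ}
    (h : (p : ℤ) ∣ m - n) : m • y = n • y := by
  obtain ⟨c, hc⟩ := h
  have : m = n + c * p := by linarith
  rw [this, add_zsmul, mul_zsmul, natCast_zsmul, hy, smul_zero, add_zero]

/-- the `δ`-eigenspace of `w_q` in `X`. -/
def signPart (δ : ℤ) : AddSubgroup (KV Kbar (FN (M * q)) P.p) where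
  carrier := {x | x ∈ X ∧ wKV M q P.p x = δ • x}
  add_mem' := by
    rintro x y ⟨hx, hx'⟩ ⟨hy, hy'⟩
    exact ⟨AddSubgroup.add_mem _ hx hy, by rw [map_add, hx', hy', smul_add]⟩
  zero_mem' := ⟨AddSubgroup.zero_mem _, by rw [_root_.map_zero, smul_zero]⟩
  neg_mem' := by
    rintro x ⟨hx, hx'⟩
    exact ⟨AddSubgroup.neg_mem _ hx, by rw [map_neg, hx', smul_neg]⟩

include hq hqM in
/-- a sign which does not occur in the eigenspace does not occur in `X`. -/
theorem signPart_eq_bot (hXsoc : Socle (M * q) P.p S W.apOfModel X)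
    (hXT : ∀ (ℓ : ℕ) [NeZero ℓ], ℓ.Prime → ¬ ℓ ∣ M * q → ℓ ∉ S →
      ∀ x ∈ X, heckeT Kbar (M * q) ℓ P.p x ∈ X)
    (δ : ℤ) (hδ : eigenW M q P.p S W.apOfModel δ = ⊥) : signPart P M q X δ = ⊥ := by
  have hdeg := Hecke.kvDegen (M := M) (q := q) hq hqM
  by_contra hne
  obtain ⟨z, hzU, hz0, hz⟩ := hXsoc (signPart P M q X δ) (fun x hx => hx.1) hne (by
    intro ℓ _ h1 h2 h3 x hx
    exact ⟨hXT ℓ h1 h2 h3 x hx.1, by rw [hdeg.w_hecke P.p ℓ h1 h2, hx.2, map_zsmul]⟩)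
  have : z ∈ eigenW M q P.p S W.apOfModel δ := ⟨hz, hzU.2⟩
  rw [hδ, AddSubgroup.mem_bot] at this
  exact hz0 this

include hirr hW hq hqM hqp hunr hXeig hGA in
/-- **The sign, `q ≡ 1 (mod p)`, Mazur's principle, and the Frobenius on the inertia invariants.** -/
theorem ga_sign (hXw : ∀ x ∈ X, wKV M q P.p x ∈ X)
    (hXsoc : Socle (M * q) P.p S W.apOfModel X)
    (hXT : ∀ (ℓ : ℕ) [NeZero ℓ], ℓ.Prime → ¬ ℓ ∣ M * q → ℓ ∉ S →
      ∀ x ∈ X, heckeT Kbar (M * q) ℓ P.p x ∈ X)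
    (hocc : eigenKV (M * q) P.p S W.apOfModel ≠ ⊥) :
    ∃ ε : ℤ, (ε = 1 ∨ ε = -1) ∧ (P.p : ℤ) ∣ (q : ℤ) - 1 ∧
      (∀ x ∈ X, wKV M q P.p x = (-ε) • x) ∧
      ∀ A : ValuationSubring Kbar, A.LiesOverPrime q → ∀ φ : GQ, A.IsFrobeniusAt φ q →
        (∀ e : Ep P, φ • e = ε • e) ∧
        ∀ x ∈ X, (∀ τ ∈ A.inertiaSubgroupIn ℚ, τ • x = x) → φ • x = ε • x := by
  obtain ⟨δ, hδ, hU⟩ := exists_eigenW_ne_bot hq hqM S W.apOfModel hocc
  have hδ2 : δ * δ = 1 := by rcases hδ with rfl | rfl <;> norm_num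
  have hpp : Prime (P.p : ℤ) := Nat.prime_iff_prime_int.mp P.pp
  have hpq := not_dvd_q P q hq hqp
  obtain ⟨A₀, φ₀, hA₀, hφ₀⟩ := Fermat.Agent.S41.Dual.exists_frob hq
  have hE := frob_Ep_of_eigenW P hirr W hW S M q hq hqM hunr X hXeig hGA δ hU
  -- `q ≡ 1`
  have hq1 : (P.p : ℤ) ∣ (q : ℤ) - 1 := by
    have h1 := sq_of_frob_scalar_Ep P hirr W hW hq hqp hA₀ hφ₀ _ (hE A₀ hA₀ φ₀ hφ₀)
    have h2 : -((q : ℤ) * δ) * -((q : ℤ) * δ) - q = q * ((q : ℤ) - 1) := by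
      linear_combination (q : ℤ) * q * hδ2
    rw [h2] at h1
    exact (hpp.dvd_or_dvd h1).resolve_left hpq
  -- the other sign does not occur
  have hother : eigenW M q P.p S W.apOfModel (-δ) = ⊥ := by
    by_contra hne
    have hE' := frob_Ep_of_eigenW P hirr W hW S M q hq hqM hunr X hXeig hGA (-δ) hne
    have h1 : (P.p : ℤ) ∣ 2 * ((q : ℤ) * δ) := by
      apply dvd_of_zsmul_Ep
      intro e
      have h2 := (hE A₀ hA₀ φ₀ hφ₀ e).symm.trans (hE' A₀ hA₀ φ₀ hφ₀ e)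
      have h3 : (2 * ((q : ℤ) * δ)) • e = (-((q : ℤ) * -δ)) • e - (-((q : ℤ) * δ)) • e := by
        rw [← sub_smul]
        congr 1
        ring
      rw [h3, h2, sub_self]
    rcases hpp.dvd_or_dvd h1 with h2 | h2
    · have h3 : P.p ∣ 2 := by exact_mod_cast h2
      have := Nat.le_of_dvd (by norm_num) h3
      have := P.hp5
      omega
    · rcases hpp.dvd_or_dvd h2 with h3 | h3
      · exact hpq h3
      · have h4 : (P.p : ℤ) ∣ δ * δ := Dvd.dvd.mul_left h3 δ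
        rw [hδ2] at h4
        exact hpp.not_dvd_one h4
  have hbot := signPart_eq_bot P W S M q hq hqM X hXsoc hXT (-δ) hother
  -- `w = δ` on `X`
  have hw : ∀ x ∈ X, wKV M q P.p x = δ • x := by
    intro x hx
    have hy : x - δ • wKV M q P.p x ∈ signPart P M q X (-δ) := by
      refine ⟨AddSubgroup.sub_mem _ hx (AddSubgroup.zsmul_mem _ (hXw x hx) δ), ?_⟩
      rw [map_sub, map_zsmul, wKV_wKV, smul_sub, smul_smul, neg_mul, hδ2, neg_zsmul, neg_zsmul,
        one_zsmul]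
      abel
    rw [hbot, AddSubgroup.mem_bot, sub_eq_zero] at hy
    conv_rhs => rw [hy, smul_smul, hδ2, one_zsmul]
  refine ⟨-δ, by rcases hδ with rfl | rfl <;> simp, hq1, fun x hx => by rw [neg_neg]; exact hw x hx,
    fun A hA φ hφ => ⟨fun e => ?_, fun x hx hfix => ?_⟩⟩
  · rw [hE A hA φ hφ e]
    refine zsmul_congr_of_dvd (p := P.p) (Subtype.ext (Ep_nsmul P e)) ?_
    obtain ⟨c, hc⟩ := hq1
    exact ⟨-(c * δ), by linear_combination (-δ) * hc⟩
  · have h1 := hGA A hA φ hφ x hx hfix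
    rw [hw x hx] at h1
    rw [eq_neg_of_add_eq_zero_left h1, ← natCast_zsmul, smul_smul, ← neg_zsmul]
    refine zsmul_congr_of_dvd (p := P.p) (KV.nsmul_eq_zero x) ?_
    obtain ⟨c, hc⟩ := hq1
    exact ⟨-(c * δ), by linear_combination (-δ) * hc⟩

/-- powers of an element acting by an integer scalar on one vector. -/
theorem pow_smul_of_scalar {Y : Type*} [AddCommGroup Y] [DistribMulAction GQ Y] (φ : GQ) (ε : ℤ)
    (y : Y) (h : φ • y = ε • y) (j : ℕ) : (φ ^ j) • y = (ε ^ j) • y := by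
  induction j with
  | zero => simp
  | succ j ih => rw [pow_succ, mul_smul, h, smul_comm, ih, smul_smul, pow_succ, mul_comm]

include hq hunr in
/-- **The decomposition group**: if one Frobenius element acts as `ε` on `E[p]` and on the inertia invariants of `X`, every element `d`
of the decomposition group acts on both as the same power of `ε`. -/
theorem ga_dec (A : ValuationSubring Kbar) (hA : A.LiesOverPrime q) (φ : GQ)
    (hφ : A.IsFrobeniusAt φ q) (ε : ℤ) (hE : ∀ e : Ep P, φ • e = ε • e)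
    (hX : ∀ x ∈ X, (∀ τ ∈ A.inertiaSubgroupIn ℚ, τ • x = x) → φ • x = ε • x)
    (d : GQ) (hd : d ∈ A.decompositionSubgroup ℚ) :
    ∃ j : ℕ, (∀ e : Ep P, d • e = (ε ^ j) • e) ∧
      ∀ x ∈ X, (∀ τ ∈ A.inertiaSubgroupIn ℚ, τ • x = x) → d • x = (ε ^ j) • x := by
  have : NeZero P.p := ⟨P.pp.ne_zero⟩
  obtain ⟨F₁, hF₁, hfix₁⟩ := S13.frey_exists_field_of_def P
  obtain ⟨F₂, hF₂, hfix₂⟩ := kv_cont (M * q) P.p
  let Pl : PT.Local.Plc := ⟨A, q, hq, hA⟩
  have hF : PT.Local.IsFrob Pl Pl.ℓ φ := Loc.isFrob_of_isFrobeniusAt Pl hφ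
  obtain ⟨j, τ, hτ, u, -, hu, rfl⟩ := S56.F.LF.dec_gen Pl hF (F₁ ⊔ F₂) (σ := d) hd
  refine ⟨j, fun e => ?_, fun x hx hfix => ?_⟩
  · have h1 : u • e = e := hfix₁ u ((IntermediateField.mem_fixingSubgroup_iff _ u).2
      fun y hy => hu y ((le_sup_left : F₁ ≤ F₁ ⊔ F₂) hy)) e
    have h2 : τ • e = e := hunr A hA τ hτ e
    rw [mul_smul, mul_smul, h1, h2]
    exact pow_smul_of_scalar φ ε e (hE e) j
  · have h1 : u • x = x := hfix₂ u (fun y hy => hu y ((le_sup_right : F₂ ≤ F₁ ⊔ F₂) hy)) x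
    rw [mul_smul, mul_smul, h1, hfix τ hτ]
    exact pow_smul_of_scalar φ ε x (hX x hx hfix) j

end Fermat.Agent.S43.GA
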