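import Fermat.Agent.S43.GA.Main
import Fermat.Agent.S43.GA.Sign

/-!
# S43 / GA / Export : **(GA-K)**, final form, UNCONDITIONAL, for the Frey curve

Level `M * q`, `4 ∣ M`, `q` prime, `q ∤ M`, `q ≠ p`, `E[p]` irreducible and unramified at `q`; `a = W.apOfModel`, `S ∋ p` finite.
HYPOTHETICAL WORLD : `eigenKV M p (insert q S) a = ⊥` (`θ` does not occur at level `M`), `eigenKV (M * q) p S a ≠ ⊥`.

`gaK` : there is `ε = ± 1` (independent of the place `A ∣ q`) such that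
* `p ∣ q - 1`;
* `w_q = - ε` on the whole generalised eigenspace `gEigenKV (M * q) p S a`;
* for every place `A ∣ q` and every Frobenius element `φ` at `A` : `φ e = ε e` on `E[p]` (Mazur's principle) and `φ x = ε x` for all
  `x ∈ gEigenKV (M * q) p S a` fixed by the inertia group of `A`;
* for every `d` in the decomposition group of `A` there is `j` with `d e = ε ^ j e` on `E[p]` and `d x = ε ^ j x` for the same `x`.

`gSub n p S a` : `gEigenKV n p S a` as a subgroup (`mem_gSub`), with `gSub_galois`, `gSub_hecke`, `gSub_w`, `gSub_socle`.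
-/

set_option autoImplicit false
set_option linter.unusedSectionVars false
set_option linter.style.haveILetI false

noncomputable section

namespace Fermat.Agent.S43.GA

open AlgebraicCurve ModularCurve Fermat.Agent.S24 Fermat.Agent.GAL Fermat.Agent.DR Fermat.Agent.MR.Glue
  Fermat.Agent.MR.E Fermat.Agent.S41.Dual
open WeierstrassCurve WeierstrassCurve.Affine WeierstrassCurve.Affine.Point

section gSub

variable (n p : ℕ) [NeZero n] (S : Finset ℕ) (a : ℕ → ℤ)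

/-- the good primes. -/
abbrev GoodP : Type := {ℓ : ℕ // ℓ.Prime ∧ ¬ ℓ ∣ n ∧ ℓ ∉ S}

/-- the generalised eigenspace as a subgroup. -/
def gSub : AddSubgroup (KV Kbar (FN n) p) := genKer (fun i : GoodP n S => UQ n p a i.1)

variable {n p S a}

theorem mem_gSub {x : KV Kbar (FN n) p} : x ∈ gSub n p S a ↔ x ∈ gEigenKV n p S a := by
  constructor
  · intro h ℓ _ h1 h2 h3
    obtain ⟨k, hk⟩ := h ⟨ℓ, h1, h2, h3⟩
    exact ⟨k, by rw [← UQ_eq_fun]; exact hk⟩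
  · rintro h ⟨ℓ, h1, h2, h3⟩
    haveI : NeZero ℓ := ⟨h1.ne_zero⟩
    obtain ⟨k, hk⟩ := h ℓ h1 h2 h3
    exact ⟨k, by rw [UQ_eq_fun]; exact hk⟩

theorem UQ_commI (hp : p ≠ 0) (i j : GoodP n S) (x : KV Kbar (FN n) p) :
    UQ n p a i.1 (UQ n p a j.1 x) = UQ n p a j.1 (UQ n p a i.1 x) :=
  UQ_comm n p hp a i.2.1 j.2.1 i.2.2.1 j.2.2.1 x

theorem eigenKV_le_gSub : eigenKV n p S a ≤ gSub n p S a :=
  fun _ hx => mem_gSub.2 (eigenKV_subset_gEigenKV n p S a hx)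

theorem gSub_of_semiconj {n' : ℕ} [NeZero n'] {S' : Finset ℕ}
    (f : KV Kbar (FN n) p →+ KV Kbar (FN n') p)
    (hsub : ∀ ℓ : ℕ, ℓ.Prime → ¬ ℓ ∣ n' → ℓ ∉ S' → ¬ ℓ ∣ n ∧ ℓ ∉ S)
    (hf : ∀ ℓ : ℕ, ℓ.Prime → ¬ ℓ ∣ n' → ℓ ∉ S' → ∀ x, f (UQ n p a ℓ x) = UQ n' p a ℓ (f x))
    {x : KV Kbar (FN n) p} (hx : x ∈ gSub n p S a) : f x ∈ gSub n' p S' a := by
  rintro ⟨ℓ, h1, h2, h3⟩
  obtain ⟨k, hk⟩ := hx ⟨ℓ, h1, (hsub ℓ h1 h2 h3).1, (hsub ℓ h1 h2 h3).2⟩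
  refine ⟨k, ?_⟩
  have hc : Function.Semiconj f (UQ n p a ℓ) (UQ n' p a ℓ) := hf ℓ h1 h2 h3
  show (UQ n' p a ℓ)^[k] (f x) = 0
  rw [← (hc.iterate_right k) x]
  show f ((UQ n p a ℓ)^[k] x) = 0
  rw [show (UQ n p a ℓ)^[k] x = 0 from hk, _root_.map_zero]

theorem gSub_galois (σ : GQ) {x : KV Kbar (FN n) p} (hx : x ∈ gSub n p S a) :
    σ • x ∈ gSub n p S a := by
  refine gSub_of_semiconj (DistribSMul.toAddMonoidHom _ σ) (fun ℓ _ h2 h3 => ⟨h2, h3⟩) ?_ hx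
  intro ℓ h1 _ _ y
  haveI : NeZero ℓ := ⟨h1.ne_zero⟩
  show σ • UQ n p a ℓ y = UQ n p a ℓ (σ • y)
  rw [UQ_apply, UQ_apply, heckeTtot_eq, heckeT_galois_smul, smul_sub, smul_comm]

theorem gSub_hecke (hp : p ≠ 0) (ℓ : ℕ) [NeZero ℓ] (h1 : ℓ.Prime) (h2 : ¬ ℓ ∣ n)
    {x : KV Kbar (FN n) p} (hx : x ∈ gSub n p S a) : heckeT Kbar n ℓ p x ∈ gSub n p S a := by
  refine gSub_of_semiconj (heckeT Kbar n ℓ p) (fun ℓ _ h2 h3 => ⟨h2, h3⟩) ?_ hx
  intro ℓ' h1' h2' _ y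
  rw [UQ_apply, UQ_apply, _root_.map_sub, _root_.map_zsmul, ← heckeTtot_eq,
    heckeTtot_comm n p hp h1 h1' h2 h2']

/-- every nonzero Hecke-stable subgroup of the generalised eigenspace contains a nonzero eigenvector. -/
theorem gSub_socle [NeZero p] : Socle n p S a (gSub n p S a) := by
  intro U hU hne hst
  haveI := kv_finite n p
  obtain ⟨z, hz, hz0, hzz⟩ := exists_eigen (fun i : GoodP n S => UQ n p a i.1)
    (UQ_commI (NeZero.ne p)) U hU (by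
      rintro ⟨ℓ, h1, h2, h3⟩ z hz
      haveI : NeZero ℓ := ⟨h1.ne_zero⟩
      show UQ n p a ℓ z ∈ U
      rw [UQ_apply, heckeTtot_eq]
      exact U.sub_mem (hst ℓ h1 h2 h3 z hz) (U.zsmul_mem hz _)) hne
  refine ⟨z, hz, hz0, fun ℓ _ h1 h2 h3 => ?_⟩
  have := hzz ⟨ℓ, h1, h2, h3⟩
  rw [UQ_apply, heckeTtot_eq, sub_eq_zero] at this
  exact this

end gSub

theorem gSub_w (M q p : ℕ) [NeZero M] [NeZero q] (hq : q.Prime) (hqM : ¬ q ∣ M) (S : Finset ℕ)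
    (a : ℕ → ℤ) {x : KV Kbar (FN (M * q)) p} (hx : x ∈ gSub (M * q) p S a) :
    wKV M q p x ∈ gSub (M * q) p S a := by
  have hD := Hecke.kvDegen (M := M) (q := q) hq hqM
  refine gSub_of_semiconj (wKV M q p) (fun ℓ _ h2 h3 => ⟨h2, h3⟩) ?_ hx
  intro ℓ h1 h2 _ y
  haveI : NeZero ℓ := ⟨h1.ne_zero⟩
  rw [UQ_apply, UQ_apply, heckeTtot_eq, _root_.map_sub, _root_.map_zsmul, hD.w_hecke p ℓ h1 h2 y]

variable (P : FreyPackage)
  (hirr : GaloisRepIsIrreducible (K := AlgebraicClosure ℚ) ℚ P.freyCurve P.p)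
  (W : WeierstrassCurve ℤ) (hW : W.IsIntegralModelOf P.freyCurve) (S : Finset ℕ) (hpS : P.p ∈ S)
  (M q : ℕ) [NeZero M] [NeZero q] (hq : q.Prime) (hqM : ¬ q ∣ M) (h4 : 4 ∣ M) (hqp : q ≠ P.p)

include hirr hW in
/-- `θ` is not Eisenstein. -/
theorem nonEis_frey (n : ℕ) [NeZero n] : NonEis n P.p S W.apOfModel := by
  obtain ⟨ℓ, h1, h2, h3⟩ := blrNonEis P hirr W hW (S ∪ n.primeFactors)
  rw [Finset.mem_union, not_or] at h2
  exact ⟨ℓ, h1, fun h => h2.2 (Nat.mem_primeFactors.mpr ⟨h1, h, NeZero.ne n⟩), h2.1, h3⟩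

include hirr hW hpS hq hqM h4 hqp in
/-- the hypothesis `GAHyp` of `Sign.lean`, from `GA.frob`. -/
theorem gaHyp_frey (hH : eigenKV M P.p (insert q S) W.apOfModel = ⊥) :
    GAHyp M q P.p (gSub (M * q) P.p S W.apOfModel) := by
  haveI : NeZero P.p := ⟨P.pp.ne_zero⟩
  intro A hA φ hφ x hx hI
  have := frob A M q hq hqM hA h4 P.p P.pp P.hp5 hqp.symm S hpS W.apOfModel
    (nonEis_frey P hirr W hW S (M * q)) hH x (mem_gSub.1 hx) hI φ hφ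
  rwa [← Hecke.interface_wKV_eq hq hqM] at this

include hirr hW hpS hq hqM h4 hqp in
/-- **(GA-K), final form.** -/
theorem gaK (hunr : P.GaloisRepUnramifiedAt q)
    (hH : eigenKV M P.p (insert q S) W.apOfModel = ⊥)
    (hocc : eigenKV (M * q) P.p S W.apOfModel ≠ ⊥) :
    ∃ ε : ℤ, (ε = 1 ∨ ε = -1) ∧ (P.p : ℤ) ∣ (q : ℤ) - 1 ∧
      (∀ x ∈ gEigenKV (M * q) P.p S W.apOfModel, wKV M q P.p x = (-ε) • x) ∧
      ∀ A : ValuationSubring Kbar, A.LiesOverPrime q →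
        (∀ φ : GQ, A.IsFrobeniusAt φ q →
          (∀ e : Ep P, φ • e = ε • e) ∧
          ∀ x ∈ gEigenKV (M * q) P.p S W.apOfModel,
            (∀ τ ∈ A.inertiaSubgroupIn ℚ, τ • x = x) → φ • x = ε • x) ∧
        ∀ d ∈ A.decompositionSubgroup ℚ, ∃ j : ℕ,
          (∀ e : Ep P, d • e = (ε ^ j) • e) ∧
          ∀ x ∈ gEigenKV (M * q) P.p S W.apOfModel,
            (∀ τ ∈ A.inertiaSubgroupIn ℚ, τ • x = x) → d • x = (ε ^ j) • x := by
  haveI : NeZero P.p := ⟨P.pp.ne_zero⟩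
  obtain ⟨ε, hε, hq1, hw, hfr⟩ := ga_sign P hirr W hW S M q hq hqM hqp hunr
    (gSub (M * q) P.p S W.apOfModel) eigenKV_le_gSub
    (gaHyp_frey P hirr W hW S hpS M q hq hqM h4 hqp hH)
    (fun x hx => gSub_w M q P.p hq hqM S _ hx) gSub_socle
    (fun ℓ _ h1 h2 _ x hx => gSub_hecke P.pp.ne_zero ℓ h1 h2 hx) hocc
  refine ⟨ε, hε, hq1, fun x hx => hw x (mem_gSub.2 hx), fun A hA => ⟨fun φ hφ =>
    ⟨(hfr A hA φ hφ).1, fun x hx hI => (hfr A hA φ hφ).2 x (mem_gSub.2 hx) hI⟩, fun d hd => ?_⟩⟩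
  haveI : IsGalois ℚ (AlgebraicClosure ℚ) := Fermat.Agent.Lib.Frobenius.isGalois_algebraicClosure _
  obtain ⟨φ, hφ⟩ := Fermat.Agent.Lib.Frobenius.exists_isFrobeniusAt A hq hA
  obtain ⟨j, h1, h2⟩ := ga_dec P M q hq hunr (gSub (M * q) P.p S W.apOfModel) A hA φ hφ ε
    (hfr A hA φ hφ).1 (hfr A hA φ hφ).2 d hd
  exact ⟨j, h1, fun x hx hI => h2 x (mem_gSub.2 hx) hI⟩

end Fermat.Agent.S43.GA
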