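import Fermat.Agent.MR.Eis.Main

/-!
# S43 / GA / EisQ : block EIS at a level prime `q` different from the torsion exponent `m`

Port of `MR.Eis.eisStatement` (there: level prime = torsion exponent = `p`).
`A` a valuation subring of `ℚ̄` over the level prime `q`, `R1 = Conc.R1 A M q` the reduction at `∞` of `FN (M * q)`,
`u` a Kummer unit of exponent `m` (any `m ≠ 0`, e.g. `m = p ^ k`), eigen for one `T_ℓ` with `a - ℓ - 1` prime to `m`.
If the slopes of `ū = red u` are constant (meter form, meter `(Δ(t)/Δ(t^q))^(q+1)`), then all the orders of `ū` are divisible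
by `m`.
-/

set_option autoImplicit false
set_option linter.unusedSectionVars false

noncomputable section

namespace Fermat.Agent.S43.GA

open AlgebraicCurve ModularCurve Fermat.Agent.S24 Fermat.Agent.GAL Fermat.Agent.GAL.Hecke
  Fermat.Agent.GAL.Igusa Fermat.Agent.GAL.RED Fermat.Agent.GAL.Gauss Fermat.Agent.DR
  Fermat.Agent.MR Fermat.Agent.MR.Eis

section defs

variable (A : ValuationSubring Kbar) (M q m : ℕ) [NeZero M] [NeZero q]

/-- all the orders of `v` are divisible by `m`. -/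
def MDiv (v : Igusa.E (kk A) M) : Prop := ∀ P : Place (kk A) (Igusa.E (kk A) M), (m : ℤ) ∣ P.ord v

/-- constant slopes modulo `m`, in meter form (meter `(Δ(t)/Δ(t^q))^(q+1)`). -/
def SlopeMeterQ (v : Igusa.E (kk A) M) (κ : ℤ) : Prop :=
  ∀ ψ : Igusa.E (kk A) M, (ψ : LaurentSeries (kk A)) = meterS (kk A) q →
    ∀ P : Place (kk A) (Igusa.E (kk A) M),
      (0 ≤ P.ord (Igusa.jb (kk A) M) → (m : ℤ) ∣ 12 * ((q : ℤ) + 1) * P.ord v - κ * P.ord ψ) ∧
      (P.ord (Igusa.jb (kk A) M) < 0 → (m : ℤ) ∣ P.ord v)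

end defs

variable (A : ValuationSubring Kbar) (M q : ℕ) [NeZero M] [NeZero q] (hq : q.Prime)
  (hqM : ¬ q ∣ M) (hA : A.LiesOverPrime q)
variable (l : ℕ) [NeZero l] (hl : l.Prime) (hlMq : ¬ l ∣ M * q)

include hl hlMq in
/-- an eigenclass of `T_l` of exponent `m`, reduced at `∞`. -/
theorem exists_TBar_eq_Q (m : ℕ) (hm : m ≠ 0) (u : kummerUnits Kbar (FN (M * q)) m) (a : ℤ)
    (hu : (Conc.R1 A M q hq hqM hA).red ((u : (FN (M * q))ˣ) : FN (M * q)) ≠ 0)
    (hT : heckeT Kbar (M * q) l m (KV.mk u) = a • KV.mk u) :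
    ∃ h : E (IsLocalRing.ResidueField ↥A) M, h ≠ 0 ∧
      TBar (IsLocalRing.ResidueField ↥A) M l
          ((Conc.R1 A M q hq hqM hA).red ((u : (FN (M * q))ˣ) : FN (M * q))) =
        (Conc.R1 A M q hq hqM hA).red ((u : (FN (M * q))ˣ) : FN (M * q)) ^ a * h ^ m := by
  set R := Conc.R1 A M q hq hqM hA with hR
  rw [heckeT_mk (heckeNormPreserves (M * q) l m) u, ← KV_mk_zpow, KV.mk_eq_mk_iff] at hT
  obtain ⟨y, hy⟩ := hT
  have hy' : (y : FN (M * q)) ^ m * ((u : (FN (M * q))ˣ) : FN (M * q)) ^ a =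
      heckeNorm Kbar (M * q) l ((u : (FN (M * q))ˣ) : FN (M * q)) := by
    have := congrArg (fun z : (FN (M * q))ˣ => (z : FN (M * q))) hy
    simpa [Units.val_zpow_eq_zpow_val] using this
  obtain ⟨-, h2⟩ := red_heckeNorm_TBar A M q hq hqM hA l hl hlMq _ (R.mem_of_red_ne_zero hu)
  have h3 : R.red (heckeNorm Kbar (M * q) l ((u : (FN (M * q))ˣ) : FN (M * q))) ≠ 0 := by
    rw [h2]
    exact TBar_ne_zero _ M l hu
  have hua : R.red (((u : (FN (M * q))ˣ) : FN (M * q)) ^ a) ≠ 0 := by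
    rw [R.red_zpow hu]
    exact zpow_ne_zero _ hu
  have hv : R.O.valuation (y : FN (M * q)) = 1 := by
    have h4 := R.red_ne_zero_iff_valuation.mp h3
    rw [← hy', map_mul, R.red_ne_zero_iff_valuation.mp hua, mul_one, map_pow] at h4
    exact eq_one_of_pow_eq_one' hm h4
  have hyr : R.red (y : FN (M * q)) ≠ 0 := R.red_ne_zero_iff_valuation.mpr hv
  refine ⟨R.red (y : FN (M * q)), hyr, ?_⟩
  have hyp : R.red ((y : FN (M * q)) ^ m) ≠ 0 := by
    rw [R.red_pow]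
    exact pow_ne_zero _ hyr
  rw [← h2, ← hy', R.red_mul (R.mem_of_red_ne_zero hyp) (R.mem_of_red_ne_zero hua), R.red_pow,
    R.red_zpow hu, mul_comm]

include hl hlMq in
/-- **Block EIS at a level prime `q`, torsion exponent `m`.**  Constant slopes and `a_ℓ - ℓ - 1` prime to `m` give slopes `0`. -/
theorem eisQ (m : ℕ) (hm : m ≠ 0) (hm12 : IsCoprime (m : ℤ) (12 * ((q : ℤ) + 1)))
    (u : kummerUnits Kbar (FN (M * q)) m) (κ : ℤ) (a : ℤ)
    (hu : (Conc.R1 A M q hq hqM hA).red ((u : (FN (M * q))ˣ) : FN (M * q)) ≠ 0)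
    (hslope : SlopeMeterQ A M q m
      ((Conc.R1 A M q hq hqM hA).red ((u : (FN (M * q))ˣ) : FN (M * q))) κ)
    (hT : heckeT Kbar (M * q) l m (KV.mk u) = a • KV.mk u)
    (hna : IsCoprime (m : ℤ) (a - l - 1)) :
    MDiv A M m ((Conc.R1 A M q hq hqM hA).red ((u : (FN (M * q))ˣ) : FN (M * q))) := by
  obtain ⟨Ψ, hΨ⟩ := exists_Psi M q hq
  set R := Conc.R1 A M q hq hqM hA with hR
  have hψ := coe_red_Psi A M q hq hqM hA Ψ hΨ
  have hψ0 := red_Psi_ne_zero A M q hq hqM hA Ψ hΨ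
  obtain ⟨h, hh0, hTu⟩ := exists_TBar_eq_Q A M q hq hqM hA l hl hlMq m hm u a hu hT
  obtain ⟨c, hc0, hTψ⟩ := exists_TBar_meter A M q hq hqM hA l hl hlMq (R.red Ψ) hψ
  have hMl := natCast_Ml_ne_zero A M q hq hqM hA l hl hlMq
  have key := core (nonCusp (IsLocalRing.ResidueField ↥A) M) (TBar (IsLocalRing.ResidueField ↥A) M l) m
    (fun y hy0 hy => TBar_preserves _ M l hMl hy0 hy)
    (R.red ((u : (FN (M * q))ˣ) : FN (M * q))) (R.red Ψ) h
    (algebraMap (IsLocalRing.ResidueField ↥A) (E (IsLocalRing.ResidueField ↥A) M) c)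
    hu hψ0 hh0 ((map_ne_zero _).mpr hc0) (fun P _ => Fermat.Agent.S24.ord_algebraMap P c)
    (12 * ((q : ℤ) + 1)) κ a l hTu hTψ
    (fun P hP => ((hslope (R.red Ψ) hψ P).1 hP)) hm12 hna
  intro P
  by_cases hP : 0 ≤ P.ord (jb (IsLocalRing.ResidueField ↥A) M)
  · exact key P hP
  · exact (hslope (R.red Ψ) hψ P).2 (not_le.mp hP)

end Fermat.Agent.S43.GA
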