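import Fermat.Agent.S43.GA.CoreMain
import Fermat.Agent.S43.RedIso.Eigen

/-!
# S43 / GA / Main : THE GA CONTRACT, UNCONDITIONAL

* `redIsoC_holds : RedIsoC`         (from `S43.RedIso.redIsoC`)
* `core : CoreStatement`            (inertia-fixed vectors of the generalised `θ`-eigenspace of `V(M q)` are in `K_tor`, if `V(M)[θ] = 0`, `θ` not Eisenstein)
* `frob : FrobStatement`            (`φ x = - q w_q x` on them)
-/

set_option autoImplicit false

namespace Fermat.Agent.S43.GA

theorem redIsoC_holds : RedIsoC :=
  fun A M q _ _ hq hqM hA h4 p _ hp hpq S a hqS h0 v hv hdiv hT =>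
    Fermat.Agent.S43.RedIso.redIsoC A M q hq hqM hA (Or.inl h4) p hp hpq S hqS a h0 v hv hdiv hT

/-- **GA-core**, unconditional. -/
theorem core : CoreStatement := coreStatement_of_redIsoC redIsoC_holds

/-- **GA, kernel form**, unconditional. -/
theorem frob : FrobStatement := frobStatement_of_redIsoC redIsoC_holds

end Fermat.Agent.S43.GA
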