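import Fermat.Agent.S43.GA.EisSharp
import Fermat.Agent.S41.Dual.Frob
import Fermat.Agent.S41.Dual.Abs
import Fermat.Agent.S41.Good.Basic
import Fermat.Agent.DR.Final
import Fermat.Agent.DR.Hecke.Degen
import Fermat.Agent.MR.Glue.Defs

/-!
# S43 / GA / Core : THE CORE OF MAZUR'S PRINCIPLE at a neat level `M * q` (`4 ∣ M`, `q ∤ M`), exponent `p ≠ q`.

`x ∈ V(M q) = KV Kbar (FN (M * q)) p` in the GENERALISED `θ`-eigenspace, fixed by the inertia group at `A ∣ q`.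
If `V(M)[θ] = 0` and `θ` is not Eisenstein then `x ∈ K_tor` (`ga_core`), hence `φ x = - q w_q x` for every Frobenius `φ` at `A` (`ga_frob`).

Inputs: `plTame_sharp` (tame Picard-Lefschetz), `eisQ_sharp` (EIS), and ONE open leaf `RedIsoC` (good reduction isomorphism, bar form).

* `le_of_socle` : abstract "socle modulo `K`" lemma (on top of `S41.Dual.exists_eigen`).
-/

set_option autoImplicit false
set_option linter.unusedSectionVars false
set_option linter.style.haveILetI false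
set_option synthInstance.maxHeartbeats 400000
set_option maxHeartbeats 1000000

noncomputable section

namespace Fermat.Agent.S43.GA

section abs

open Fermat.Agent.S41.Dual

variable {ι B : Type*} [AddCommGroup B]

/-- **socle modulo `K`.** -/
theorem le_of_socle [Finite B] (U : ι → B →+ B) (hU : ∀ i j x, U i (U j x) = U j (U i x))
    (K W : AddSubgroup B) (hK : ∀ i, ∀ x ∈ K, U i x ∈ K) (hW : ∀ i, ∀ x ∈ W, U i x ∈ W)
    (hgen : W ≤ genKer U) (key : ∀ x ∈ W, (∀ i, U i x ∈ K) → x ∈ K) : W ≤ K := by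
  by_contra hne
  obtain ⟨x, hxW, hxK⟩ := SetLike.not_le_iff_exists.1 hne
  let Ub : ι → (B ⧸ K) →+ (B ⧸ K) := fun i =>
    QuotientAddGroup.map K K (U i) (fun y hy => hK i y hy)
  have hmk : ∀ i (y : B), Ub i (QuotientAddGroup.mk y) = QuotientAddGroup.mk (U i y) :=
    fun i y => rfl
  have hit : ∀ i (k : ℕ) (y : B),
      (Ub i)^[k] (QuotientAddGroup.mk y) = QuotientAddGroup.mk ((U i)^[k] y) := by
    intro i k
    induction k with
    | zero => intro y; rfl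
    | succ k ih =>
      intro y
      rw [Function.iterate_succ_apply, Function.iterate_succ_apply, hmk, ih]
  let Z : AddSubgroup (B ⧸ K) := W.map (QuotientAddGroup.mk' K)
  have hZne : Z ≠ ⊥ := by
    intro h
    have h1 : (QuotientAddGroup.mk' K) x ∈ Z := AddSubgroup.mem_map_of_mem _ hxW
    rw [h, AddSubgroup.mem_bot] at h1
    exact hxK ((QuotientAddGroup.eq_zero_iff x).1 h1)
  obtain ⟨z, hzZ, hz0, hz⟩ := exists_eigen Ub
    (by
      intro i j y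
      obtain ⟨y, rfl⟩ := QuotientAddGroup.mk_surjective y
      rw [hmk, hmk, hmk, hmk, hU])
    Z
    (by
      rintro _ ⟨y, hy, rfl⟩ i
      obtain ⟨k, hk⟩ := hgen hy i
      refine ⟨k, ?_⟩
      show (Ub i)^[k] (QuotientAddGroup.mk y) = 0
      rw [hit, hk]
      rfl)
    (by
      rintro j _ ⟨y, hy, rfl⟩
      exact ⟨U j y, hW j y hy, rfl⟩)
    hZne
  obtain ⟨y, hy, rfl⟩ := hzZ
  apply hz0
  refine (QuotientAddGroup.eq_zero_iff y).2 (key y hy fun i => ?_)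
  exact (QuotientAddGroup.eq_zero_iff (U i y)).1 (hz i)

end abs

open AlgebraicCurve ModularCurve Fermat.Agent.S24 Fermat.Agent.GAL Fermat.Agent.GAL.Hecke
  Fermat.Agent.GAL.Igusa Fermat.Agent.GAL.RED Fermat.Agent.GAL.Gauss Fermat.Agent.DR
  Fermat.Agent.DR.Gal Fermat.Agent.MR Fermat.Agent.MR.Eis Fermat.Agent.MR.Glue
  Fermat.Agent.S41.Dual Fermat.Agent.S41.Good

/-- **The open leaf RED-ISO** (bar form): a `θ`-eigen Kummer unit of the reduction of `X₀(M)` is a `p`-th power when `V(M)[θ] = 0`. -/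
def RedIsoC : Prop :=
  ∀ (A : ValuationSubring Kbar) (M q : ℕ) [NeZero M] [NeZero q], q.Prime → ¬ q ∣ M →
    A.LiesOverPrime q → 4 ∣ M → ∀ (p : ℕ) [NeZero p], p.Prime → p ≠ q →
    ∀ (S : Finset ℕ) (a : ℕ → ℤ), q ∈ S → eigenKV M p S a = ⊥ →
    ∀ v : Igusa.E (kk A) M, v ≠ 0 → MDiv A M p v →
      (∀ (l : ℕ) [NeZero l], l.Prime → ¬ l ∣ M * q → l ∉ S →
        ∃ h : Igusa.E (kk A) M, h ≠ 0 ∧ TBar (kk A) M l v = v ^ (a l) * h ^ p) →
      ∃ w : Igusa.E (kk A) M, v = w ^ p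

/-- `T_ℓ - a_ℓ`. -/
def UQ (n p : ℕ) [NeZero n] (a : ℕ → ℤ) (ℓ : ℕ) : KV Kbar (FN n) p →+ KV Kbar (FN n) p :=
  heckeTtot n p ℓ - a ℓ • AddMonoidHom.id _

theorem UQ_apply (n p : ℕ) [NeZero n] (a : ℕ → ℤ) (ℓ : ℕ) (x : KV Kbar (FN n) p) :
    UQ n p a ℓ x = heckeTtot n p ℓ x - a ℓ • x := rfl

theorem UQ_comm (n p : ℕ) [NeZero n] (hp : p ≠ 0) (a : ℕ → ℤ) {ℓ ℓ' : ℕ} (hℓ : ℓ.Prime)
    (hℓ' : ℓ'.Prime) (h : ¬ ℓ ∣ n) (h' : ¬ ℓ' ∣ n) (x : KV Kbar (FN n) p) :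
    UQ n p a ℓ (UQ n p a ℓ' x) = UQ n p a ℓ' (UQ n p a ℓ x) := by
  simp only [UQ_apply, map_sub, map_zsmul, smul_sub]
  rw [heckeTtot_comm n p hp hℓ hℓ' h h', smul_comm (a ℓ) (a ℓ') x]
  abel

variable (A : ValuationSubring Kbar) (M q : ℕ) [NeZero M] [NeZero q] (hq : q.Prime)
  (hqM : ¬ q ∣ M) (hA : A.LiesOverPrime q)

section leaves

variable (l : ℕ) [NeZero l] (hl : l.Prime) (hlMq : ¬ l ∣ M * q)

include hl hlMq in
/-- `Kone R1` is stable under `T_l`. -/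
theorem heckeT_mem_Kone (m : ℕ) {x : KV Kbar (FN (M * q)) m}
    (hx : x ∈ Kone (Conc.R1 A M q hq hqM hA) m) :
    heckeT Kbar (M * q) l m x ∈ Kone (Conc.R1 A M q hq hqM hA) m := by
  obtain ⟨f, rfl, hf⟩ := hx
  refine ⟨_, (heckeT_mk (heckeNormPreserves (M * q) l m) f).symm, ?_⟩
  have hmem : ((f : (FN (M * q))ˣ) : FN (M * q)) ∈ (Conc.R1 A M q hq hqM hA).O :=
    (Conc.R1 A M q hq hqM hA).mem_of_red_ne_zero (by rw [hf]; exact one_ne_zero)
  obtain ⟨-, h2⟩ := red_heckeNorm_TBar A M q hq hqM hA l hl hlMq _ hmem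
  show (Conc.R1 A M q hq hqM hA).red (heckeNorm Kbar (M * q) l ((f : (FN (M * q))ˣ) : FN (M * q))) = 1
  rw [h2, hf, map_one]

include hl hlMq in
/-- an eigenclass of `T_l` modulo `Kone R1`, reduced at `∞`. -/
theorem exists_TBar_eq_of_mem_Kone (m : ℕ) (hm : m ≠ 0) (u : kummerUnits Kbar (FN (M * q)) m) (a : ℤ)
    (hu : (Conc.R1 A M q hq hqM hA).red ((u : (FN (M * q))ˣ) : FN (M * q)) ≠ 0)
    (hT : heckeT Kbar (M * q) l m (KV.mk u) - a • KV.mk u ∈ Kone (Conc.R1 A M q hq hqM hA) m) :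
    ∃ h : E (IsLocalRing.ResidueField ↥A) M, h ≠ 0 ∧
      TBar (IsLocalRing.ResidueField ↥A) M l
          ((Conc.R1 A M q hq hqM hA).red ((u : (FN (M * q))ˣ) : FN (M * q))) =
        (Conc.R1 A M q hq hqM hA).red ((u : (FN (M * q))ˣ) : FN (M * q)) ^ a * h ^ m := by
  set R := Conc.R1 A M q hq hqM hA with hR
  obtain ⟨f, hf, hf1⟩ := hT
  have hT' : heckeT Kbar (M * q) l m (KV.mk u) = KV.mk (u ^ a * f) := by
    rw [KV.mk_mul, KV_mk_zpow, hf]
    abel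
  rw [heckeT_mk (heckeNormPreserves (M * q) l m) u, KV.mk_eq_mk_iff] at hT'
  obtain ⟨y, hy⟩ := hT'
  have hy' : (y : FN (M * q)) ^ m * (((u : (FN (M * q))ˣ) : FN (M * q)) ^ a *
      ((f : (FN (M * q))ˣ) : FN (M * q))) =
      heckeNorm Kbar (M * q) l ((u : (FN (M * q))ˣ) : FN (M * q)) := by
    have := congrArg (fun z : (FN (M * q))ˣ => (z : FN (M * q))) hy
    simpa [Units.val_zpow_eq_zpow_val] using this
  obtain ⟨-, h2⟩ := red_heckeNorm_TBar A M q hq hqM hA l hl hlMq _ (R.mem_of_red_ne_zero hu)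
  have h3 : R.red (heckeNorm Kbar (M * q) l ((u : (FN (M * q))ˣ) : FN (M * q))) ≠ 0 := by
    rw [h2]
    exact TBar_ne_zero _ M l hu
  have hf0 : R.red ((f : (FN (M * q))ˣ) : FN (M * q)) ≠ 0 := by rw [hf1]; exact one_ne_zero
  have hua : R.red (((u : (FN (M * q))ˣ) : FN (M * q)) ^ a) ≠ 0 := by
    rw [R.red_zpow hu]
    exact zpow_ne_zero _ hu
  have huaf : R.red (((u : (FN (M * q))ˣ) : FN (M * q)) ^ a * ((f : (FN (M * q))ˣ) : FN (M * q))) ≠ 0 := by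
    rw [R.red_mul (R.mem_of_red_ne_zero hua) (R.mem_of_red_ne_zero hf0)]
    exact mul_ne_zero hua hf0
  have hv : R.O.valuation (y : FN (M * q)) = 1 := by
    have h4 := R.red_ne_zero_iff_valuation.mp h3
    rw [← hy', map_mul, R.red_ne_zero_iff_valuation.mp huaf, mul_one, map_pow] at h4
    exact eq_one_of_pow_eq_one' hm h4
  have hyr : R.red (y : FN (M * q)) ≠ 0 := R.red_ne_zero_iff_valuation.mpr hv
  refine ⟨R.red (y : FN (M * q)), hyr, ?_⟩
  have hyp : R.red ((y : FN (M * q)) ^ m) ≠ 0 := by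
    rw [R.red_pow]
    exact pow_ne_zero _ hyr
  rw [← h2, ← hy', R.red_mul (R.mem_of_red_ne_zero hyp) (R.mem_of_red_ne_zero huaf), R.red_pow,
    R.red_mul (R.mem_of_red_ne_zero hua) (R.mem_of_red_ne_zero hf0), hf1, mul_one,
    R.red_zpow hu, mul_comm]

end leaves

/-- a class whose reduction is an `m`-th power lies in `Kone`. -/
theorem mem_Kone_of_red_eq_pow {K F k Fb : Type*} [Field K] [Field F] [Algebra K F] [Field k]
    [Field Fb] [Algebra k Fb] (R : RedData K F k Fb) (m : ℕ) (u : kummerUnits K F m) (w : Fb)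
    (hw : w ≠ 0) (h : R.red ((u : Fˣ) : F) = w ^ m) : KV.mk u ∈ Kone R m := by
  obtain ⟨⟨y, hyO⟩, hy⟩ := R.res_surjective w
  have hyr : R.red y = w := by rw [R.red_of_mem hyO, hy]
  have hy0 : y ≠ 0 := by
    rintro rfl
    apply hw
    rw [← hyr, R.red_of_mem R.O.zero_mem]
    exact map_zero _
  let Y : Fˣ := Units.mk0 y hy0
  refine ⟨u * ⟨(Y ^ m)⁻¹, inv_mem (pow_mem_kummerUnits m Y)⟩, ?_, ?_⟩
  · rw [KV.mk_eq_mk_iff]
    refine ⟨Y⁻¹, ?_⟩
    show Y⁻¹ ^ m * (u : Fˣ) = (u : Fˣ) * (Y ^ m)⁻¹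
    rw [inv_pow, mul_comm]
  · show R.red (((u : Fˣ) : F) * (((Y ^ m)⁻¹ : Fˣ) : F)) = 1
    have e1 : (((Y ^ m)⁻¹ : Fˣ) : F) = (y ^ m)⁻¹ := by
      rw [Units.val_inv_eq_inv_val, Units.val_pow_eq_pow_val]
      rfl
    have hym : R.red (y ^ m) ≠ 0 := by
      rw [R.red_pow, hyr]
      exact pow_ne_zero _ hw
    have hu0 : R.red ((u : Fˣ) : F) ≠ 0 := by
      rw [h]
      exact pow_ne_zero _ hw
    rw [e1, ← div_eq_mul_inv, R.red_div (R.mem_of_red_ne_zero hu0) hym, h, R.red_pow, hyr,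
      div_self (pow_ne_zero _ hw)]

/-- **GA, component `∞`.** -/
theorem ga_kone1 (hRI : RedIsoC) (h4 : 4 ∣ M) (p : ℕ) [NeZero p] (hp : p.Prime) (hpq : p ≠ q)
    (S : Finset ℕ) (hqS : q ∈ S) (a : ℕ → ℤ) (hH : eigenKV M p S a = ⊥)
    (hNE : ∃ l : ℕ, l.Prime ∧ ¬ l ∣ M * q ∧ l ∉ S ∧ IsCoprime (p : ℤ) (a l - l - 1))
    (x : KV Kbar (FN (M * q)) p)
    (hgen : ∀ ℓ : ℕ, ℓ.Prime → ¬ ℓ ∣ M * q → ℓ ∉ S → ∃ n : ℕ, (UQ (M * q) p a ℓ)^[n] x = 0)
    (hI : ∀ τ ∈ A.inertiaSubgroupIn ℚ, τ • x = x) :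
    x ∈ Kone (Conc.R1 A M q hq hqM hA) p := by
  haveI : Finite (KV Kbar (FN (M * q)) p) := finite_KV (M * q) p hp.ne_zero
  set R := Conc.R1 A M q hq hqM hA with hR
  let ι := {ℓ : ℕ // ℓ.Prime ∧ ¬ ℓ ∣ M * q ∧ ℓ ∉ S}
  let U : ι → KV Kbar (FN (M * q)) p →+ KV Kbar (FN (M * q)) p := fun i => UQ (M * q) p a i
  have hU : ∀ i j x, U i (U j x) = U j (U i x) := fun i j x =>
    UQ_comm (M * q) p hp.ne_zero a i.2.1 j.2.1 i.2.2.1 j.2.2.1 x
  let Fx : AddSubgroup (KV Kbar (FN (M * q)) p) :=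
    { carrier := {y | ∀ τ ∈ A.inertiaSubgroupIn ℚ, τ • y = y}
      zero_mem' := fun τ _ => smul_zero τ
      add_mem' := by
        intro y z hy hz τ hτ
        rw [smul_add, hy τ hτ, hz τ hτ]
      neg_mem' := by
        intro y hy τ hτ
        rw [smul_neg, hy τ hτ] }
  have hUT : ∀ (i : ι) (y : KV Kbar (FN (M * q)) p),
      U i y = (haveI : NeZero (i : ℕ) := ⟨i.2.1.ne_zero⟩; heckeT Kbar (M * q) i p y) - a i • y := by
    intro i y
    haveI : NeZero (i : ℕ) := ⟨i.2.1.ne_zero⟩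
    show UQ (M * q) p a i y = _
    rw [UQ_apply, heckeTtot_eq]
  have main : genKer U ⊓ Fx ≤ KoneSub R p := by
    refine le_of_socle U hU (KoneSub R p) (genKer U ⊓ Fx) ?_ ?_ inf_le_left ?_
    · intro i y hy
      haveI : NeZero (i : ℕ) := ⟨i.2.1.ne_zero⟩
      rw [hUT]
      exact (KoneSub R p).sub_mem
        (heckeT_mem_Kone A M q hq hqM hA i i.2.1 i.2.2.1 p hy) ((KoneSub R p).zsmul_mem hy _)
    · intro i y hy
      haveI : NeZero (i : ℕ) := ⟨i.2.1.ne_zero⟩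
      refine ⟨map_mem_genKer U hU i hy.1, fun τ hτ => ?_⟩
      rw [hUT, smul_sub, ← heckeT_galois (M * q) i p i.2.1 i.2.2.1 τ y, smul_comm τ (a i) y,
        hy.2 τ hτ]
    · intro y hy hyK
      obtain ⟨u, rfl⟩ := KV.mk_surjective y
      -- scale
      obtain ⟨c, hc0, hc⟩ := Conc.R1_scale A M q hq hqM hA ((u : (FN (M * q))ˣ) : FN (M * q))
        (Units.ne_zero _)
      obtain ⟨b, hb⟩ := IsAlgClosed.exists_pow_nat_eq c hp.pos
      have hb0 : b ≠ 0 := by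
        rintro rfl
        rw [zero_pow hp.ne_zero] at hb
        exact hc0 hb.symm
      let Bu : (FN (M * q))ˣ := Units.mk0 (algebraMap Kbar (FN (M * q)) b) ((map_ne_zero _).2 hb0)
      let u' : kummerUnits Kbar (FN (M * q)) p :=
        ⟨Bu ^ p * (u : (FN (M * q))ˣ), mul_mem (pow_mem_kummerUnits p Bu) u.2⟩
      have hu' : KV.mk u' = KV.mk u := (KV.mk_eq_mk_iff u' u).2 ⟨Bu, rfl⟩
      have hval : ((u' : (FN (M * q))ˣ) : FN (M * q)) =
          algebraMap Kbar (FN (M * q)) c * ((u : (FN (M * q))ˣ) : FN (M * q)) := by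
        show (algebraMap Kbar (FN (M * q)) b) ^ p * _ = _
        rw [← map_pow, hb]
      have hred : R.red ((u' : (FN (M * q))ˣ) : FN (M * q)) ≠ 0 := by
        rw [hval]
        exact hc
      obtain ⟨κ, hκ⟩ := plTame_sharp M q hq hqM h4 A hA p hp (KV.mk u) hy.2 u' hu' hred
      have hbar : ∀ (l : ℕ) [NeZero l], l.Prime → ¬ l ∣ M * q → l ∉ S →
          ∃ h : Igusa.E (kk A) M, h ≠ 0 ∧
            TBar (kk A) M l (R.red ((u' : (FN (M * q))ˣ) : FN (M * q))) =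
              R.red ((u' : (FN (M * q))ˣ) : FN (M * q)) ^ (a l) * h ^ p := by
        intro l _ hl hlMq hlS
        refine exists_TBar_eq_of_mem_Kone A M q hq hqM hA l hl hlMq p hp.ne_zero u' (a l) hred ?_
        have := hyK ⟨l, hl, hlMq, hlS⟩
        rw [hUT] at this
        rw [hu']
        exact this
      obtain ⟨l, hl, hlMq, hlS, hco⟩ := hNE
      haveI : NeZero l := ⟨hl.ne_zero⟩
      have hdiv := eisQ_sharp A M q hq hqM hA l hl hlMq p hp.ne_zero _ hred κ (a l) hκ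
        (hbar l hl hlMq hlS) hco
      obtain ⟨w, hw⟩ := hRI A M q hq hqM hA h4 p hp hpq S a hqS hH _ hred hdiv hbar
      have hw0 : w ≠ 0 := by
        rintro rfl
        rw [zero_pow hp.ne_zero] at hw
        exact hred hw
      rw [← hu']
      exact mem_Kone_of_red_eq_pow R p u' w hw0 hw
  exact main ⟨fun (i : ι) => hgen (i : ℕ) i.2.1 i.2.2.1 i.2.2.2, hI⟩

end Fermat.Agent.S43.GA
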