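import Fermat.Agent.S43.GA.Core
import Fermat.Agent.S43.GA.Contract

/-!
# S43 / GA / CoreMain : `RedIsoC → CoreStatement → FrobStatement`

The contract `GA/Contract.lean` (`CoreStatement`, `FrobStatement`) is proved from the single open leaf `RedIsoC` of `GA/Core.lean`.
Also (unconditional) `ga_unipotent` : `(σ - 1)(τ - 1) = 0` on `V(M q)` for `σ, τ` in the inertia group at `A ∣ q`.
-/

set_option autoImplicit false
set_option linter.unusedSectionVars false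
set_option linter.style.haveILetI false
set_option synthInstance.maxHeartbeats 400000
set_option maxHeartbeats 1000000

noncomputable section

namespace Fermat.Agent.S43.GA

open AlgebraicCurve ModularCurve Fermat.Agent.S24 Fermat.Agent.GAL Fermat.Agent.GAL.Hecke
  Fermat.Agent.GAL.Igusa Fermat.Agent.GAL.RED Fermat.Agent.GAL.Gauss Fermat.Agent.DR
  Fermat.Agent.DR.Gal Fermat.Agent.MR Fermat.Agent.MR.Eis Fermat.Agent.MR.Glue
  Fermat.Agent.S41.Dual Fermat.Agent.S41.Good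

variable (A : ValuationSubring Kbar) (M q : ℕ) [NeZero M] [NeZero q] (hq : q.Prime)
  (hqM : ¬ q ∣ M) (hA : A.LiesOverPrime q)

/-- `w_q` exchanges the two `Kone`s. -/
theorem mem_Kone_R2_of_wKV_mem (m : ℕ) (x : KV Kbar (FN (M * q)) m)
    (h : DR.wKV M q m x ∈ Kone (Conc.R1 A M q hq hqM hA) m) :
    x ∈ Kone (Conc.R2 A M q hq hqM hA) m := by
  obtain ⟨f, hf, hf1⟩ := h
  have hx : x = DR.wKV M q m (KV.mk f) := by rw [hf, DR.wKV_wKV]
  rw [hx, DR.wKV, KV.map_mk]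
  refine ⟨_, rfl, ?_⟩
  show (Conc.R2 A M q hq hqM hA).red (DR.wq M q ((f : (FN (M * q))ˣ) : FN (M * q))) = 1
  have e : DR.wq M q ((f : (FN (M * q))ˣ) : FN (M * q)) =
      Conc.W M q hq hqM ((f : (FN (M * q))ˣ) : FN (M * q)) := by
    rw [DR.wq, dif_pos ⟨hq, hqM⟩]
    rfl
  rw [e, Conc.R2_red_W, hf1]

theorem UQ_eq_fun (n p : ℕ) [NeZero n] (a : ℕ → ℤ) (ℓ : ℕ) [NeZero ℓ] :
    (UQ n p a ℓ : KV Kbar (FN n) p → KV Kbar (FN n) p) =
      fun y => heckeT Kbar n ℓ p y - a ℓ • y := by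
  funext y
  rw [UQ_apply, heckeTtot_eq]

/-- **GA-core** from RED-ISO (raw form, exceptional set `S ∋ q`). -/
theorem ga_core (hRI : RedIsoC) (h4 : 4 ∣ M) (p : ℕ) [NeZero p] (hp : p.Prime) (hpq : p ≠ q)
    (S : Finset ℕ) (hqS : q ∈ S) (a : ℕ → ℤ) (hH : eigenKV M p S a = ⊥)
    (hNE : ∃ l : ℕ, l.Prime ∧ ¬ l ∣ M * q ∧ l ∉ S ∧ IsCoprime (p : ℤ) (a l - l - 1))
    (x : KV Kbar (FN (M * q)) p)
    (hgen : ∀ ℓ : ℕ, ℓ.Prime → ¬ ℓ ∣ M * q → ℓ ∉ S → ∃ n : ℕ, (UQ (M * q) p a ℓ)^[n] x = 0)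
    (hI : ∀ τ ∈ A.inertiaSubgroupIn ℚ, τ • x = x) :
    x ∈ KtorC A M q hq hqM hA p := by
  have hD := Hecke.kvDegen (M := M) (q := q) hq hqM
  refine ⟨ga_kone1 A M q hq hqM hA hRI h4 p hp hpq S hqS a hH hNE x hgen hI, ?_⟩
  apply mem_Kone_R2_of_wKV_mem
  refine ga_kone1 A M q hq hqM hA hRI h4 p hp hpq S hqS a hH hNE _ ?_ ?_
  · intro ℓ hℓ hℓn hℓS
    haveI : NeZero ℓ := ⟨hℓ.ne_zero⟩
    obtain ⟨n, hn⟩ := hgen ℓ hℓ hℓn hℓS
    refine ⟨n, ?_⟩
    have hc : Function.Semiconj (DR.wKV M q p) (UQ (M * q) p a ℓ) (UQ (M * q) p a ℓ) := by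
      intro y
      rw [UQ_apply, UQ_apply, heckeTtot_eq, map_sub, map_zsmul,
        hD.w_hecke p ℓ hℓ hℓn y]
    rw [← (hc.iterate_right n) x, hn, map_zero]
  · intro τ hτ
    rw [← hD.w_galois p τ x, hI τ hτ]

/-- **The GA contract** from RED-ISO. -/
theorem coreStatement_of_redIsoC (hRI : RedIsoC) : CoreStatement := by
  intro A M q _ _ hq hqM hA h4 p _ hp _ hpq S _ a hne hH x hx hI
  obtain ⟨l, hl, hln, hlS, hlp⟩ := hne
  refine ga_core A M q hq hqM hA hRI h4 p hp hpq (insert q S) (Finset.mem_insert_self q S) a hH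
    ⟨l, hl, hln, ?_, ?_⟩ x ?_ hI
  · intro h
    rcases Finset.mem_insert.1 h with rfl | h
    · exact hln (Dvd.intro_left M rfl)
    · exact hlS h
  · exact ((Nat.prime_iff_prime_int.1 hp).coprime_iff_not_dvd).2 hlp
  · intro ℓ hℓ hℓn hℓS
    haveI : NeZero ℓ := ⟨hℓ.ne_zero⟩
    obtain ⟨k, hk⟩ := hx ℓ hℓ hℓn (fun h => hℓS (Finset.mem_insert_of_mem h))
    refine ⟨k, ?_⟩
    rw [UQ_eq_fun]
    exact hk

theorem frobStatement_of_redIsoC (hRI : RedIsoC) : FrobStatement :=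
  frob_of_core (coreStatement_of_redIsoC hRI)

include hq hqM hA in
/-- **DR1 at a neat level, exponent `p`** (exact, no denominators). -/
theorem ga_unipotent (h4 : 4 ∣ M) (p : ℕ) (hp : p.Prime) (hpq : p ≠ q)
    (σ τ : GQ) (hσ : σ ∈ A.inertiaSubgroupIn ℚ) (hτ : τ ∈ A.inertiaSubgroupIn ℚ)
    (x : KV Kbar (FN (M * q)) p) : σ • τ • x - σ • x - τ • x + x = 0 := by
  haveI : Fact q.Prime := ⟨hq⟩
  haveI := Hecke.charP_residueField A hq hA
  haveI := perfectRing_residueField q A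
  have h := Final.drGeomAll_of_neat M q hq hqM (Or.inl h4) hp hpq.symm A hA 1
  rw [pow_one] at h
  exact unipotent_of_DRGeom A M q hq hqM hA hp.pos h σ τ hσ hτ x

end Fermat.Agent.S43.GA
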