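import Fermat.Agent.S43.GA.PLTame

/-!
# S43 / GA / EisSharp : block EIS in BAR form, from the SHARP slope statement, with NO coprimality hypothesis on `12 (q + 1)`

`v ∈ E κ M` with sharp constant slopes `κ` modulo `p` (`SlopeSharpQ`, output of `plTame_sharp`) and `T̄_l v = v ^ a * h ^ p` with
`a - l - 1` prime to `p`.  Then all the orders of `v` are divisible by `p`.

Trick: `y = v ^ e * ψ ^ N` (`e = 12 (q + 1) = ord ψ` at the supersingular points, `N ≡ - κ mod p e`) has all its non cuspidal orders divisible by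
`p * e`, and `T̄_l` preserves this property (`TBar_preserves` holds for every modulus).
-/

set_option autoImplicit false
set_option linter.unusedSectionVars false

noncomputable section

namespace Fermat.Agent.S43.GA

open AlgebraicCurve ModularCurve Fermat.Agent.S24 Fermat.Agent.GAL Fermat.Agent.GAL.Hecke
  Fermat.Agent.GAL.Igusa Fermat.Agent.GAL.RED Fermat.Agent.GAL.Gauss Fermat.Agent.DR
  Fermat.Agent.MR Fermat.Agent.MR.Eis

variable (A : ValuationSubring Kbar) (M q : ℕ) [NeZero M] [NeZero q] (hq : q.Prime)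
  (hqM : ¬ q ∣ M) (hA : A.LiesOverPrime q)
variable (l : ℕ) [NeZero l] (hl : l.Prime) (hlMq : ¬ l ∣ M * q)

include hq hqM hA hl hlMq in
/-- **Block EIS, bar form, sharp slopes.** -/
theorem eisQ_sharp (p : ℕ) (hp0 : p ≠ 0) (v : E (IsLocalRing.ResidueField ↥A) M) (hv : v ≠ 0)
    (κ a : ℤ) (hslope : SlopeSharpQ A M q p v κ)
    (hTv : ∃ h : E (IsLocalRing.ResidueField ↥A) M, h ≠ 0 ∧
      TBar (IsLocalRing.ResidueField ↥A) M l v = v ^ a * h ^ p)
    (hna : IsCoprime (p : ℤ) (a - l - 1)) : MDiv A M p v := by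
  obtain ⟨Ψ, hΨ⟩ := exists_Psi M q hq
  set R := Conc.R1 A M q hq hqM hA with hR
  have hψ := coe_red_Psi A M q hq hqM hA Ψ hΨ
  have hψ0 := red_Psi_ne_zero A M q hq hqM hA Ψ hΨ
  obtain ⟨h, hh0, hTu⟩ := hTv
  obtain ⟨c, hc0, hTψ⟩ := exists_TBar_meter A M q hq hqM hA l hl hlMq (R.red Ψ) hψ
  have hMl := natCast_Ml_ne_zero A M q hq hqM hA l hl hlMq
  set ψ := R.red Ψ with hψdef
  intro P
  obtain ⟨s1, s2, s3⟩ := hslope ψ hψ P
  by_cases hP : 0 ≤ P.ord (jb (IsLocalRing.ResidueField ↥A) M)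
  swap
  · exact s3 (not_le.mp hP)
  by_cases hP0 : P.ord ψ = 0
  · exact s2 hP hP0
  obtain ⟨hPe, hPκ⟩ := s1 hP hP0
  -- a natural representative of `κ`
  have hpZ : (p : ℤ) ≠ 0 := by exact_mod_cast hp0
  obtain ⟨n0, hn0⟩ : ∃ n0 : ℕ, (p : ℤ) ∣ κ - n0 := by
    refine ⟨(κ % p).toNat, ?_⟩
    rw [Int.toNat_of_nonneg (Int.emod_nonneg _ hpZ)]
    exact ⟨κ / p, by have := Int.emod_add_mul_ediv κ p; linarith⟩
  set e : ℕ := 12 * (q + 1) with he
  have he0 : (e : ℤ) ≠ 0 := by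
    have : 0 < e := by positivity
    exact_mod_cast this.ne'
  have heZ : (e : ℤ) = 12 * ((q : ℤ) + 1) := by
    rw [he]; push_cast; ring
  have hpe1 : 1 ≤ p * e := Nat.one_le_iff_ne_zero.2 (Nat.mul_ne_zero hp0 (by positivity))
  set N : ℕ := n0 * (p * e - 1) with hN
  have hNZ : (N : ℤ) = n0 * ((p : ℤ) * e - 1) := by
    rw [hN]; push_cast [Nat.cast_sub hpe1]; ring
  set y : E (IsLocalRing.ResidueField ↥A) M := v ^ e * ψ ^ N with hy
  have hy0 : y ≠ 0 := mul_ne_zero (pow_ne_zero _ hv) (pow_ne_zero _ hψ0)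
  have ordpow : ∀ (Q : Place (IsLocalRing.ResidueField ↥A) (E (IsLocalRing.ResidueField ↥A) M))
      (z : E (IsLocalRing.ResidueField ↥A) M) (n : ℕ), Q.ord (z ^ n) = n * Q.ord z := by
    intro Q z n
    rw [← zpow_natCast z n, Q.ord_zpow]
  have hyord : ∀ Q : Place (IsLocalRing.ResidueField ↥A) (E (IsLocalRing.ResidueField ↥A) M),
      Q.ord y = e * Q.ord v + N * Q.ord ψ := by
    intro Q
    rw [hy, Q.ord_mul (pow_ne_zero _ hv) (pow_ne_zero _ hψ0), ordpow, ordpow]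
  have hydiv : ∀ Q ∈ nonCusp (IsLocalRing.ResidueField ↥A) M, ((p * e : ℕ) : ℤ) ∣ Q.ord y := by
    intro Q hQ
    obtain ⟨t1, t2, -⟩ := hslope ψ hψ Q
    rw [hyord Q]
    by_cases hQ0 : Q.ord ψ = 0
    · obtain ⟨d, hd⟩ := t2 hQ hQ0
      refine ⟨d, ?_⟩
      rw [hQ0, hd]; push_cast; ring
    · obtain ⟨hQe, d, hd⟩ := t1 hQ hQ0
      obtain ⟨d', hd'⟩ := hn0
      refine ⟨d + d' + n0 * e, ?_⟩
      have h1 : Q.ord v = κ + p * d := by linarith
      have h2 : κ = n0 + p * d' := by linarith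
      rw [hQe, ← heZ, h1, h2, hNZ]; push_cast; ring
  have key := TBar_preserves (IsLocalRing.ResidueField ↥A) M l hMl hy0 hydiv P hP
  have hTy : TBar (IsLocalRing.ResidueField ↥A) M l y =
      (v ^ a * h ^ p) ^ e *
        (algebraMap (IsLocalRing.ResidueField ↥A) (E (IsLocalRing.ResidueField ↥A) M) c *
          ψ ^ (l + 1)) ^ N := by
    rw [hy, map_mul, map_pow, map_pow, hTu, hTψ]
  have hcE : algebraMap (IsLocalRing.ResidueField ↥A) (E (IsLocalRing.ResidueField ↥A) M) c ≠ 0 :=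
    (map_ne_zero _).mpr hc0
  have o1 : P.ord (v ^ a * h ^ p) = a * P.ord v + p * P.ord h := by
    rw [P.ord_mul (zpow_ne_zero _ hv) (pow_ne_zero _ hh0), P.ord_zpow, ordpow]
  have o2 : P.ord (algebraMap (IsLocalRing.ResidueField ↥A) (E (IsLocalRing.ResidueField ↥A) M) c *
      ψ ^ (l + 1)) = ((l : ℤ) + 1) * P.ord ψ := by
    rw [P.ord_mul hcE (pow_ne_zero _ hψ0), Fermat.Agent.S24.ord_algebraMap P c, ordpow]
    push_cast
    ring
  rw [hTy, P.ord_mul (pow_ne_zero _ (mul_ne_zero (zpow_ne_zero _ hv) (pow_ne_zero _ hh0)))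
    (pow_ne_zero _ (mul_ne_zero hcE (pow_ne_zero _ hψ0))), ordpow, ordpow, o1, o2, hPe, ← heZ] at key
  -- cancel `e`
  have key2 : (p : ℤ) ∣ a * P.ord v + p * P.ord h + N * ((l : ℤ) + 1) := by
    obtain ⟨d, hd⟩ := key
    refine ⟨d, ?_⟩
    apply mul_left_cancel₀ he0
    have : ((p * e : ℕ) : ℤ) = p * e := by push_cast; ring
    rw [this] at hd
    linear_combination hd
  obtain ⟨d1, hd1⟩ := hPκ
  obtain ⟨d2, hd2⟩ := hn0
  obtain ⟨d3, hd3⟩ := key2
  have hov : P.ord v = n0 + p * (d1 + d2) := by linarith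
  have h3 : (p : ℤ) ∣ (a - l - 1) * n0 := by
    refine ⟨d3 - P.ord h - a * (d1 + d2) - n0 * e * ((l : ℤ) + 1), ?_⟩
    rw [hov, hNZ] at hd3
    linear_combination hd3
  have h4 : (p : ℤ) ∣ (n0 : ℤ) := hna.dvd_of_dvd_mul_left h3
  rw [hov]
  exact dvd_add h4 (Dvd.intro _ rfl)

end Fermat.Agent.S43.GA
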