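import Fermat.Agent.S36.Abs.Count
import Fermat.Agent.GAL.KVGalois

/-!
# S43 / GA / IsoAbs : divisibility of the toric part `K_all` (abstract nodal reduction)

`h : IsPreNodal T x N a₀`.
* `IsDelta.kvRed`      : `δ (red κ) = δ (κ) ^ c` for the transition map `V_{m c} → V_m`;
* `exists_lift_Kall`   : every class of `K_all[m]` is the image of a class of `K_all[m c]`
  (surjectivity of `δ` : `S36.Abs.exists_isDelta_of_card`).
-/

set_option autoImplicit false

namespace Fermat.Agent.S43.GA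

open AlgebraicCurve Fermat.Agent.Lib.RR Fermat.Agent.GAL Fermat.Agent.GAL.RED Fermat.Agent.DR.Abs
  Fermat.Agent.S36.Abs

variable {K F k : Type*} [Field K] [Field F] [Algebra K F] [Field k] {ι : Type*}
  {Fb : ι → Type*} [∀ i, Field (Fb i)] [∀ i, Algebra k (Fb i)] {E : Type*}

variable [IsFF K F] [IsAlgClosed K] [∀ i, IsFF k (Fb i)] [IsAlgClosed k] [Fintype ι] [Fintype E]

/-- the gluing cochain of the image of `κ` in `V_m` is the `c`-th power of the gluing cochain of `κ`. -/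
theorem IsDelta.kvRed {T : MultiRed K F k Fb} {x : F} {N : NodeData k Fb E} {a₀ : ℕ}
    (h : IsPreNodal T x N a₀) {m c : ℕ} (hmc : ((m * c : ℕ) : k) ≠ 0) {κ : KV K F (m * c)}
    {δ : E → k} (hδ : IsDelta T x N (m * c) κ δ) :
    IsDelta T x N m (KV.red (Dvd.intro c rfl) κ) (fun e => δ e ^ c) := by
  have hm : (m : k) ≠ 0 := by
    intro h0
    apply hmc
    rw [Nat.cast_mul, h0, zero_mul]
  have hmc0 : 0 < m * c := Nat.pos_of_ne_zero (by intro h0; rw [h0] at hmc; simp at hmc)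
  obtain ⟨f, rfl, hr, hs⟩ := hδ
  refine ⟨⟨(f : Fˣ), kummerUnits_le_of_dvd (Dvd.intro c rfl) f.2⟩, (KV.red_mk _ f).symm, hr, ?_⟩
  show SecGlued T x N m ((f : Fˣ) : F) (fun e => δ e ^ c)
  obtain ⟨y, hy, -, hy₂⟩ := exists_section_ev_ne_zero h hmc (fun P => f.2 P) hr
  have hreg := fun e => IsSection.ord_nonneg h hmc0 hr hy e
  have hdiv : ∀ P : Place K F, (m : ℤ) ∣ P.ord ((f : Fˣ) : F) :=
    fun P => kummerUnits_le_of_dvd (Dvd.intro c rfl) f.2 P
  have hsec : IsSection T x m ((f : Fˣ) : F) (y ^ c) := by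
    obtain ⟨hyO, a, ha⟩ := hy
    refine ⟨T.O.pow_mem hyO c, a, ?_⟩
    rw [← pow_mul, mul_comm c m]
    exact ha
  refine secGlued_of_section h hm hdiv hr hsec ?_ ?_
  · intro e
    rw [T.red_pow, Pi.pow_apply, ev_pow _ (hreg e).2]
    exact pow_ne_zero _ (hy₂ e)
  · intro e
    rw [T.red_pow, Pi.pow_apply, Pi.pow_apply, ev_pow _ (hreg e).1, ev_pow _ (hreg e).2,
      hs y hy e, mul_pow]

/-- **Divisibility of the toric part.** -/
theorem exists_lift_Kall [Nonempty ι] {T : MultiRed K F k Fb} {x : F} {N : NodeData k Fb E}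
    {a₀ : ℕ} (h : IsPreNodal T x N a₀) (hsc : HasScales T) {m c : ℕ}
    (hmc : ((m * c : ℕ) : k) ≠ 0) (hloop : ∀ e, N.i₁ e ≠ N.i₂ e)
    (hF : Nat.card (KV K F (m * c)) = (m * c) ^ (2 * genusFF K F))
    (hfin : ∀ i, Finite (KV k (Fb i) (m * c)))
    (hb : ∀ i, Nat.card (KV k (Fb i) (m * c)) ≤ (m * c) ^ (2 * genusFF k (Fb i)))
    {κ : KV K F m} (hκ : κ ∈ Kall T m) :
    ∃ κ' ∈ Kall T (m * c), KV.red (Dvd.intro c rfl) κ' = κ := by
  have hm : (m : k) ≠ 0 := by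
    intro h0
    apply hmc
    rw [Nat.cast_mul, h0, zero_mul]
  have hc0 : 0 < c := Nat.pos_of_ne_zero (by rintro rfl; simp at hmc)
  obtain ⟨δ, hδ⟩ := exists_isDelta h hm hκ
  have hroot : ∀ e, ∃ d : k, d ^ c = δ e := fun e => IsAlgClosed.exists_pow_nat_eq _ hc0
  choose δ' hδ' using hroot
  have hpow : ∀ e, δ' e ^ (m * c) = 1 := by
    intro e
    rw [mul_comm, pow_mul, hδ' e]
    exact hδ.pow_eq_one h hm e
  obtain ⟨κ', hκ'⟩ := exists_isDelta_of_card h hsc hmc hloop hF hfin hb hpow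
  refine ⟨κ', hκ'.mem_Kall, ?_⟩
  have h1 := IsDelta.kvRed h hmc hκ'
  have h2 : (fun e => δ' e ^ c) = δ := funext hδ'
  rw [h2] at h1
  exact h1.eq h hm hδ

end Fermat.Agent.S43.GA
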