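import Fermat.Agent.S41.Dual.Frob
import Fermat.Agent.S19.ND.Compat
import Fermat.Agent.GAL.KVGalois

/-!
# S43 / GA / IsoPair : the Weil pairing on the Kummer model, change of exponent, and the weight argument

* `kvPair_kvRed`   : `e_m (red x, red y) = e_{m c} (x, y) ^ c`;
* `kvPair_weight`  : if `g x = - q w x`, `g y = - q w y` (`w` linear, `g = ζ ↦ ζ ^ q` on `μ`) then
  `e (x, y) ^ (q * q) = e (x, y) ^ q`.
-/

set_option autoImplicit false
set_option linter.unusedSectionVars false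

noncomputable section

namespace Fermat.Agent.S43.GA

open AlgebraicCurve Fermat.Agent.Lib.RR Fermat.Agent.GAL Fermat.Agent.S19.Weil Fermat.Agent.S15.H
  Fermat.Agent.S41.Dual

universe u v

variable {K : Type u} {F : Type v} [Field K] [IsAlgClosed K] [CharZero K] [Field F] [Algebra K F]
  [IsFF K F]

theorem kvPic_kvRed (m c : ℕ) (hm : m ≠ 0) (hmc : m * c ≠ 0) (x : KV K F (m * c)) :
    kvPic (K := K) (F := F) m hm (KV.red (Dvd.intro c rfl) x)
      = c • kvPic (K := K) (F := F) (m * c) hmc x := by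
  obtain ⟨u, rfl⟩ := KV.mk_surjective x
  rw [KV.red_mk, kvPic_mk, kvPic_mk]
  have hc : c ≠ 0 := by rintro rfl; simp at hmc
  have key : divM (K := K) m ((u : Fˣ) : F) = c • divM (K := K) (m * c) ((u : Fˣ) : F) := by
    ext v
    rw [Finsupp.smul_apply, divM_apply, divM_apply, nsmul_eq_mul]
    obtain ⟨t, ht⟩ := u.2 v
    rw [ht]
    push_cast
    rw [Int.mul_ediv_cancel_left _ (by exact_mod_cast hmc), mul_assoc,
      Int.mul_ediv_cancel_left _ (by exact_mod_cast hm)]
  exact congrArg Pic0.mk (Subtype.ext key)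

theorem weil_nsmul_right {m : ℕ} {X Y : Pic0 K F} (hX : X ∈ Pic0.torsion K F m)
    (hY : Y ∈ Pic0.torsion K F m) (c : ℕ) : weil m X (c • Y) = weil m X Y ^ c := by
  induction c with
  | zero => rw [zero_nsmul, weil_zero_right, pow_zero]
  | succ c ih =>
    rw [succ_nsmul, weil_add_right hX (nsmul_mem hY c) hY, ih, pow_succ]

theorem weil_nsmul_left {m : ℕ} {X Y : Pic0 K F} (hX : X ∈ Pic0.torsion K F m)
    (hY : Y ∈ Pic0.torsion K F m) (c : ℕ) : weil m (c • X) Y = weil m X Y ^ c := by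
  rw [weil_swap m Y (c • X), weil_nsmul_right hY hX, weil_swap m X Y, inv_pow, inv_inv]

/-- **Change of exponent.** -/
theorem kvPair_kvRed (m c : ℕ) (hm : m ≠ 0) (hmc : m * c ≠ 0) (x y : KV K F (m * c)) :
    kvPair m hm (KV.red (Dvd.intro c rfl) x) (KV.red (Dvd.intro c rfl) y)
      = kvPair (m * c) hmc x y ^ c := by
  unfold kvPair
  rw [kvPic_kvRed m c hm hmc, kvPic_kvRed m c hm hmc]
  have hX := kvPic_mem_torsion (K := K) (F := F) (m * c) hmc x
  have hY := kvPic_mem_torsion (K := K) (F := F) (m * c) hmc y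
  generalize kvPic (K := K) (F := F) (m * c) hmc x = X at hX ⊢
  generalize kvPic (K := K) (F := F) (m * c) hmc y = Y at hY ⊢
  have hY' : c • Y ∈ Pic0.torsion K F m := by
    rw [Pic0.mem_torsion, natCast_zsmul] at hY ⊢
    rw [← mul_smul]
    exact hY
  rw [mul_comm m c] at hX hY ⊢
  rw [← Fermat.Agent.S19.ND.weil_mul_left hX hY', weil_nsmul_right hX hY]

/-- **The weight argument.** -/
theorem kvPair_weight (m : ℕ) (hm : m ≠ 0) (q : ℕ) (g w : SemilinearAut K F)
    (hw : ∀ c : K, SemilinearAut.baseAut w c = c)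
    (hg : ∀ ζ : Kˣ, ζ ^ m = 1 → Units.map (SemilinearAut.baseAut g : K →* K) ζ = ζ ^ q)
    (x y : KV K F m) (hx : g • x + q • (w • x) = 0) (hy : g • y + q • (w • y) = 0) :
    kvPair m hm x y ^ (q * q) = kvPair m hm x y ^ q := by
  have h1 := kvPair_semilinear m hm g x y
  rw [hg _ (kvPair_pow m hm x y), eq_neg_of_add_eq_zero_left hx, eq_neg_of_add_eq_zero_left hy,
    kvPair_neg_left, kvPair_neg_right, inv_inv, kvPair_nsmul_left, kvPair_nsmul_right,
    kvPair_smul m hm w hw, ← pow_mul] at h1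
  exact h1

/-- consequence: if `p ^ s` is the exact power of `p` dividing `q - 1` (`p ≠ q` primes), then
`e_{p ^ n} (x, y) ^ (p ^ s) = 1`. -/
theorem pow_eq_one_of_weight {G : Type*} [Group G] (z : G) {p q s n : ℕ} (hp : p.Prime)
    (hq : 0 < q) (hpq : ¬ p ∣ q) (hs : ¬ p ^ (s + 1) ∣ q - 1) (hz : z ^ (p ^ n) = 1)
    (hw : z ^ (q * q) = z ^ q) : z ^ (p ^ s) = 1 := by
  have h1 : z ^ (q * (q - 1)) = 1 := by
    have e : q * q = q + q * (q - 1) := by
      obtain ⟨r, rfl⟩ : ∃ r, q = r + 1 := ⟨q - 1, by omega⟩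
      simp only [Nat.add_sub_cancel]
      ring
    rw [e, pow_add] at hw
    exact mul_left_cancel (a := z ^ q) (by rw [hw, mul_one])
  have h2 : orderOf z ∣ p ^ n := orderOf_dvd_of_pow_eq_one hz
  have h3 : orderOf z ∣ q * (q - 1) := orderOf_dvd_of_pow_eq_one h1
  obtain ⟨t, -, ht⟩ := (Nat.dvd_prime_pow hp).1 h2
  rw [ht] at h3
  have h4 : p ^ t ∣ q - 1 :=
    (Nat.Coprime.pow_left t ((Nat.Prime.coprime_iff_not_dvd hp).2 hpq)).dvd_of_dvd_mul_left h3
  have h5 : t ≤ s := by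
    by_contra hcon
    exact hs ((pow_dvd_pow p (by omega)).trans h4)
  apply orderOf_dvd_iff_pow_eq_one.1
  rw [ht]
  exact pow_dvd_pow p h5

end Fermat.Agent.S43.GA
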