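import Fermat.Agent.MR.PLC.Main
import Fermat.Agent.S43.GA.EisQ

/-!
# S43 / GA : TAME PICARD-LEFSCHETZ.  Level `M * q` (`q` prime, `q ∤ M`, `4 ∣ M`), `A` over `q`, exponent `p` (any prime).

A class `x ∈ KV Kbar (FN (M * q)) p` fixed by the inertia group of `A` has CONSTANT SLOPES:
if `u` represents `x` then
`ord_P (red_i u) ≡ c (other) - c i (mod p)` at the nodes, `ord_P (red_i u) ≡ 0 (mod p)` at all the other places.

This is a re-wiring of `MR/PLC/End/Final.lean` (all the blocks of MR/PLC are agnostic of the exponent) with `S = ⊥`.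

* `metOut`      : `MR.PLC.End.MetOut` for every level prime (the hypothesis `5 ≤ p` of `MetStatement` is not used).
* `plTame_raw`  : node form.
* `plTame` : meter form (`SlopeMeterQ` of `EisQ.lean` = `MR.SlopeMeter` with the modulus `p` decoupled from the level prime `q`);
* `SlopeSharpQ`, `plTame_sharp` : sharp form.
-/

set_option autoImplicit false
set_option linter.unusedSectionVars false
set_option linter.style.haveILetI false
set_option synthInstance.maxHeartbeats 400000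
set_option maxHeartbeats 1000000

noncomputable section

namespace Fermat.Agent.S43.GA

section met

open ModularCurve AlgebraicCurve Polynomial Fermat.Agent.S24 Fermat.Agent.GAL Fermat.Agent.GAL.Gauss
  Fermat.Agent.GAL.RED Fermat.Agent.DR.Gal Fermat.Agent.DR.Conc Fermat.Agent.Lib.RR
  Fermat.Agent.S28 Fermat.Agent.S36R.Unit Fermat.Agent.S36.Kron Fermat.Agent.DR.Abs
  Fermat.Agent.MR Fermat.Agent.MR.PLC Fermat.Agent.MR.PLC.Met Fermat.Agent.DR

/-- **(MET)** for every level prime. -/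
theorem metOut (M p : ℕ) [NeZero M] [NeZero p] (hp : p.Prime) (hpM : ¬ p ∣ M) (h4 : 4 ∣ M)
    (A : ValuationSubring Kbar) (hA : A.LiesOverPrime p)
    [Fact p.Prime] [CharP (kk A) p] [PerfectRing (kk A) p] [IsAlgClosed (kk A)]
    [Lib.RR.IsFF (kk A) (Igusa.E (kk A) M)] [Lib.RR.IsFF Kbar (FN (M * p))]
    [Lib.RR.IsFF Kbar (FN M)] (hg : Conc.GoodRed A M) :
    End.MetOut A M p hp hpM hA (Conc.pairHyp A M p hp hpM hA hg).nodeData := by
  have hneat : 4 ∣ M ∨ 9 ∣ M := Or.inl h4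
  obtain ⟨Φ, U, G, m, c, hB⟩ := GAL.Igusa.hB p hp
  have hB' : BData p Φ U G m c := hB
  have h := pairHyp A M p hp hpM hA hg
  obtain ⟨a₀, hN⟩ := h.isPreNodal
  refine ⟨meterOK A M p hp hpM hA hneat hg, xiC M p, 12 * m, Psi M p Φ G, ?_, ?_, ?_, ?_⟩
  · intro τ _
    exact gal_xiC M p τ
  · refine isCoord M p hp hpM A hA _ ?_ ?_ ?_ ?_
    · intro e
      have := hN.unit₁ e
      rwa [TT_red_xC] at this
    · intro e
      have := hN.unit₂ e
      rwa [TT_red_xC] at this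
    · intro e
      refine ord_jb_nonneg_of_mem_SS _ p M ((mem_SS _ p M).2 ?_)
      rw [ord_hsE_p₁ A M p hp hpM hA hneat hg e]
      norm_num
    · intro e
      refine ord_jb_nonneg_of_mem_SS _ p M ((mem_SS _ p M).2 ?_)
      rw [ord_hsE_p₂ A M p hp hpM hA hneat hg e]
      norm_num
  · exact ord_xC_nonneg_of_xiC M p hp hpM
  · exact isMeter A M p hp hpM hA hB' hg (fun e => (ord_hsE_p₁ A M p hp hpM hA hneat hg e).ge)
      (fun e => (ord_hsE_p₂ A M p hp hpM hA hneat hg e).ge)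

end met

open AlgebraicCurve ModularCurve Fermat.Agent.S24 Fermat.Agent.GAL Fermat.Agent.GAL.RED
  Fermat.Agent.DR Fermat.Agent.DR.Abs Fermat.Agent.DR.Gal Fermat.Agent.S33.Cover Fermat.Agent.S33.HeckeP
  Fermat.Agent.S36.RC Fermat.Agent.MR.PLC.Abs Fermat.Agent.GAL.Igusa Fermat.Agent.S33.GalP
  Fermat.Agent.MR Fermat.Agent.MR.PLC Fermat.Agent.MR.PLC.End

/-- **TAME PICARD-LEFSCHETZ, node form.** -/
theorem plTame_raw (M q : ℕ) [NeZero M] [NeZero q] (hq : q.Prime) (hqM : ¬ q ∣ M) (h4 : 4 ∣ M)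
    (A : ValuationSubring Kbar) (hA : A.LiesOverPrime q)
    [Fact q.Prime] [CharP (kk A) q] [PerfectRing (kk A) q] [IsAlgClosed (kk A)]
    [Lib.RR.IsFF (kk A) (Igusa.E (kk A) M)] [Lib.RR.IsFF Kbar (FN (M * q))]
    [Lib.RR.IsFF Kbar (FN M)] (hg : Conc.GoodRed A M)
    (p : ℕ) [NeZero p] (hp : p.Prime) (x : KV Kbar (FN (M * q)) p)
    (hx : ∀ τ ∈ A.inertiaSubgroupIn ℚ, τ • x = x)
    (u : kummerUnits Kbar (FN (M * q)) p) (hux : KV.mk u = x) :
    MeterOK A M q (Conc.pairHyp A M q hq hqM hA hg).nodeData ∧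
    ∃ c : Fin 2 → ℤ,
      (∀ e, ((Conc.TT A M q hq hqM hA).R ((Conc.pairHyp A M q hq hqM hA hg).nodeData.i₁ e)).red
          ((u : (FN (M * q))ˣ) : FN (M * q)) ≠ 0 →
        (p : ℤ) ∣ ((Conc.pairHyp A M q hq hqM hA hg).nodeData.p₁ e).ord
          (((Conc.TT A M q hq hqM hA).R ((Conc.pairHyp A M q hq hqM hA hg).nodeData.i₁ e)).red
            ((u : (FN (M * q))ˣ) : FN (M * q))) -
          (c ((Conc.pairHyp A M q hq hqM hA hg).nodeData.i₂ e) -
            c ((Conc.pairHyp A M q hq hqM hA hg).nodeData.i₁ e))) ∧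
      (∀ e, ((Conc.TT A M q hq hqM hA).R ((Conc.pairHyp A M q hq hqM hA hg).nodeData.i₂ e)).red
          ((u : (FN (M * q))ˣ) : FN (M * q)) ≠ 0 →
        (p : ℤ) ∣ ((Conc.pairHyp A M q hq hqM hA hg).nodeData.p₂ e).ord
          (((Conc.TT A M q hq hqM hA).R ((Conc.pairHyp A M q hq hqM hA hg).nodeData.i₂ e)).red
            ((u : (FN (M * q))ˣ) : FN (M * q))) -
          (c ((Conc.pairHyp A M q hq hqM hA hg).nodeData.i₁ e) -
            c ((Conc.pairHyp A M q hq hqM hA hg).nodeData.i₂ e))) ∧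
      ∀ (j : Fin 2) (P : Place (kk A) (Igusa.E (kk A) M)),
        (∀ s, (Conc.pairHyp A M q hq hqM hA hg).nodeData.branch s ≠ ⟨j, P⟩) →
        ((Conc.TT A M q hq hqM hA).R j).red ((u : (FN (M * q))ˣ) : FN (M * q)) ≠ 0 →
        (p : ℤ) ∣ P.ord (((Conc.TT A M q hq hqM hA).R j).red ((u : (FN (M * q))ˣ) : FN (M * q))) := by
  have hP := Conc.pairHyp A M q hq hqM hA hg
  obtain ⟨a₀, hN⟩ := hP.isPreNodal
  haveI : Fintype ↥(hP.filt.nodes) := hP.filt.finite_nodes.fintype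
  -- SER
  have hrig : ∀ τ ∈ A.inertiaSubgroupIn ℚ, ∀ a : ℕ, IsCyc p τ a →
      ∀ s ∈ (⊥ : AddSubgroup (KV Kbar (FN (M * q)) p)), τ • s = a • s := by
    intro τ _ a _ s hs
    rw [AddSubgroup.mem_bot.1 hs, smul_zero, smul_zero]
  have hx' : ∀ τ ∈ A.inertiaSubgroupIn ℚ,
      τ • x - x ∈ (⊥ : AddSubgroup (KV Kbar (FN (M * q)) p)) := by
    intro τ hτ
    rw [AddSubgroup.mem_bot, hx τ hτ, sub_self]
  obtain ⟨E, _, _, _, _, _, _, Sm, hSm, hgen, h0, hh0, hf⟩ :=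
    serStatement (M * q) p hp A ⊥ x hrig hx' u hux
  haveI : Lib.RR.IsFF Kbar E := Fermat.Agent.S19.ND.isFF_of_finiteDimensional Kbar (FN (M * q)) E
  -- VAL
  have hV : ValContract (Conc.TT A M q hq hqM hA) p :=
    valContract_of (Nat.cast_ne_zero.2 hp.ne_zero) _ (Conc.TT_sep A M q hq hqM hA)
      (fin_TT_hasScales A M q hq hqM hA) (fin_TT_rankOne A M q hq hqM hA)
      (fin_TT_small A M q hq hqM hA)
  have hgen' : IntermediateField.adjoin (FN (M * q)) {y : E |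
      ∃ v : kummerUnits Kbar (FN (M * q)) p, KV.mk v ∈ DeepAll (Conc.TT A M q hq hqM hA) p ∧
        y ^ p = algebraMap (FN (M * q)) E ((v : (FN (M * q))ˣ) : FN (M * q))} = ⊤ := by
    rw [eq_top_iff, ← hgen]
    apply IntermediateField.adjoin.mono
    rintro y ⟨v, hv, hy⟩
    refine ⟨v, ?_, hy⟩
    rw [AddSubgroup.mem_bot.1 hv]
    exact zero_mem _
  obtain ⟨T', hC, hS'⟩ := hV E hgen'
  -- COVER
  have hgenus := Fermat.Agent.S33.Val.genus_cover_kummerUnits (K := Kbar) hp.pos (fun y hy => by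
    obtain ⟨v, -, hv⟩ := hy
    exact ⟨v, v.2, hv⟩) hgen'
  obtain ⟨b, a₁, hN'⟩ := hC.exists_isPreNodal hS' hN (Fermat.Agent.S33.Val.degree_poleDiv_algebraMap _) hgenus
  have hbip : ∀ e, ((coverNodes hP.nodeData b).i₁ e).1 ≠ ((coverNodes hP.nodeData b).i₂ e).1 := by
    intro e
    show (0 : Fin 2) ≠ 1
    decide
  have hloop : ∀ e, (coverNodes hP.nodeData b).i₁ e ≠ (coverNodes hP.nodeData b).i₂ e :=
    fun e h => hbip e (congrArg Prod.fst h)
  -- SP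
  have hval := SP.spStatement M q hq hqM h4 A hA E Sm hSm T' hC hS' _ (coverNodes hP.nodeData b) a₁
    hN' hbip
  -- DESC
  obtain ⟨K0, F0, E0, _, _, _, _, _, B, βF, ϖ, hϖ, hBΓ, hfix, hind, hBase, hDF, hfixF⟩ :=
    Desc.descStatement M q hq hqM A hA E Sm hSm
  -- MET
  obtain ⟨hMok, ξ, m, Ψ, hξΓ, hξ, hxξ, hΨ⟩ := metOut M q hq hqM h4 A hA hg
  -- the group
  set Γ : Subgroup (SemilinearAut Kbar E) := Sm.Φ.range with hΓdef
  have hΓ : GalAct T' B Γ := by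
    refine ⟨hBΓ, fun y hy => hfix y fun τ => hy _ ⟨τ, rfl⟩, fun y => ?_, ?_⟩
    · refine (hSm.orb y).subset ?_
      rintro _ ⟨⟨_, τ, rfl⟩, rfl⟩
      exact ⟨τ, rfl⟩
    · rintro _ ⟨τ, rfl⟩ w y hy
      exact hval τ w y hy
  have hcomm : Comm (FN (M * q)) Γ := by
    rintro _ ⟨τ, rfl⟩ g z
    exact hSm.comm τ g z
  have hfixF' : ∀ y : FN (M * q),
      (∀ γ ∈ Γ, γ • algebraMap (FN (M * q)) E y = algebraMap (FN (M * q)) E y) →
        y ∈ Set.range βF := by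
    intro y hy
    refine hfixF y fun τ hτ => ?_
    have h1 := hy _ ⟨⟨τ, hτ⟩, rfl⟩
    rw [hSm.res] at h1
    exact (algebraMap (FN (M * q)) E).injective h1
  have hinvF : ∀ y : FN (M * q), (∀ τ ∈ A.inertiaSubgroupIn ℚ, gal (M * q) τ • y = y) →
      Inv Γ (algebraMap (FN (M * q)) E y) := by
    rintro y hy _ ⟨τ, rfl⟩
    rw [hSm.res, hy _ τ.2]
  have hB' : Base T' ϖ := base_cover hC hBase
  -- ABS
  have hU : Unram T' Γ (q : Kbar) := by
    rw [← hϖ]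
    exact unram_of_abs hC hN'.cart hN'.sep hB' hind hΓ hDF hcomm hfixF'
  have hξ' : IsCoord T' (algebraMap (FN (M * q)) E ξ) (coverNodes hP.nodeData b) :=
    isCoord_cover hC (Conc.TT_sep A M q hq hqM hA) hS' hξ
      (Fermat.Agent.S33.Val.degree_poleDiv_algebraMap _) b
  have hΨ' : IsMeter T' (algebraMap K0 Kbar ϖ) (algebraMap (FN (M * q)) E ξ)
      (coverNodes hP.nodeData b) m (fun w => algebraMap (FN (M * q)) E (Ψ w.1)) := by
    rw [hϖ]
    exact isMeter_cover hC hΨ b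
  have hxξ' : ∀ P : Place Kbar E, 0 ≤ P.ord (algebraMap (FN (M * q)) E ξ) →
      0 ≤ P.ord (algebraMap (FN (M * q)) E (Conc.xC M q)) := by
    intro P hP0
    rw [P.ord_restrict] at hP0 ⊢
    have he : 0 < (P.ramificationIndex (FN (M * q)) : ℤ) := by
      exact_mod_cast P.ramificationIndex_pos (F := FN (M * q))
    exact mul_nonneg he.le (hxξ _ (nonneg_of_mul_nonneg_right hP0 he))
  have hSl : Slope T' Γ (q : Kbar) p (coverNodes hP.nodeData b) := by
    rw [← hϖ]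
    exact slope_of_abs hC hN' hloop hB' hind hΓ hDF hcomm hfixF'
      (hinvF _ fun τ _ => Conc.gal_xC M q τ) (hinvF ξ hξΓ) hξ' hxξ' hΨ' hp.pos
  -- END
  have hlc : IsLC Γ Sm.lc := by
    refine ⟨Sm.lc_mul, Sm.lc_algebraMap, ?_⟩
    rintro _ ⟨τ, rfl⟩ z
    exact Sm.lc_smul τ z
  have hf' : Inv Γ (algebraMap (FN (M * q)) E ((u : (FN (M * q))ˣ) : FN (M * q)) * h0 ^ p) := by
    rintro _ ⟨τ, rfl⟩
    exact hf τ
  have hA' : T'.A = A := A_eq_of_splitCover hC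
  have hq0 : (q : Kbar) ≠ 0 := Nat.cast_ne_zero.2 hq.ne_zero
  have hqn : (q : Kbar) ∈ A.nonunits := hA
  have hqA : (q : Kbar) ∈ T'.A := by
    rw [hA']
    exact A.nonunits_subset hqn
  have hqr : T'.redA (q : Kbar) = 0 := by
    have hR : (T'.R (0, 1)).A = A := (T'.A_eq _).trans hA'
    rw [← T'.redA_eq (0, 1), (T'.R (0, 1)).redA_eq_zero_iff (by rw [hR]; exact A.nonunits_subset hqn),
      hR]
    exact (ValuationSubring.mem_nonunits_iff A).1 hqn
  -- PEU is automatic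
  have hP' : Peu T'.A Γ (q : Kbar) p ((u : (FN (M * q))ˣ) : FN (M * q)) := by
    intro β hβ _ hγ
    have hβΓ : ∀ γ ∈ Γ, SemilinearAut.baseAut γ β = β := by
      rintro _ ⟨τ, rfl⟩
      apply hγ _ ⟨τ, rfl⟩
      have hxτ : (τ : GQ) • x = x := hx _ τ.2
      rw [← hux, KV.galois_smul_def, KV.semilinear_smul_mk, KV.mk_eq_mk_iff] at hxτ
      obtain ⟨y, hy⟩ := hxτ
      refine ⟨(y : FN (M * q)), y.ne_zero, ?_⟩
      rw [hSm.res]
      congr 1
      have h2 := congrArg (fun z : (FN (M * q))ˣ => (z : FN (M * q))) hy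
      simp only [Units.val_mul, Units.val_pow_eq_pow_val] at h2
      rw [mul_comm ((u : (FN (M * q))ˣ) : FN (M * q)), h2]
      rfl
    obtain ⟨n, hn⟩ := hU (algebraMap Kbar E β) ((map_ne_zero _).2 hβ) (Inv.const hβΓ) (0, 1)
    refine ⟨n, ?_⟩
    have h3 : (T'.R (0, 1)).redA (β / (q : Kbar) ^ n) ≠ 0 := by
      intro h
      apply hn
      rw [← map_zpow₀, ← map_div₀, (T'.R (0, 1)).red_algebraMap', h, map_zero]
    have h1 := (T'.R (0, 1)).redA_ne_zero_iff_valuation.1 h3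
    rw [T'.A_eq, map_div₀, map_zpow₀] at h1
    have h2 : T'.A.valuation (q : Kbar) ^ n ≠ 0 := zpow_ne_zero _ ((map_ne_zero _).2 hq0)
    rw [map_pow, (div_eq_one_iff_eq h2).1 h1, ← zpow_natCast, ← zpow_mul, mul_comm n]
  exact ⟨hMok, const_slopes hC hlc hcomm hU hq0 hqA hqr hp.pos hSl (Units.ne_zero _) u.2 hh0 hf' hP'⟩

/-- constant slopes, sharp form (no factor `12 (q + 1)`): `ord_P v ≡ κ` at the zeros of the meter off the cusps (= the supersingular
points), `ord_P v ≡ 0` at all the other places. -/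
def SlopeSharpQ (A : ValuationSubring Kbar) (M q p : ℕ) [NeZero M] [NeZero q]
    (v : Igusa.E (kk A) M) (κ : ℤ) : Prop :=
  ∀ ψ : Igusa.E (kk A) M, (ψ : LaurentSeries (kk A)) = meterS (kk A) q →
    ∀ P : Place (kk A) (Igusa.E (kk A) M),
      (0 ≤ P.ord (Igusa.jb (kk A) M) → P.ord ψ ≠ 0 →
        P.ord ψ = 12 * ((q : ℤ) + 1) ∧ (p : ℤ) ∣ P.ord v - κ) ∧
      (0 ≤ P.ord (Igusa.jb (kk A) M) → P.ord ψ = 0 → (p : ℤ) ∣ P.ord v) ∧
      (P.ord (Igusa.jb (kk A) M) < 0 → (p : ℤ) ∣ P.ord v)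

theorem SlopeSharpQ.slopeMeterQ {A : ValuationSubring Kbar} {M q p : ℕ} [NeZero M] [NeZero q]
    {v : Igusa.E (kk A) M} {κ : ℤ} (h : SlopeSharpQ A M q p v κ) : SlopeMeterQ A M q p v κ := by
  intro ψ hψ P
  obtain ⟨h1, h2, h3⟩ := h ψ hψ P
  refine ⟨fun hj => ?_, h3⟩
  by_cases h0 : P.ord ψ = 0
  · rw [h0, mul_zero, sub_zero]
    exact Dvd.dvd.mul_left (h2 hj h0) _
  · obtain ⟨e1, d, hd⟩ := h1 hj h0
    rw [e1]
    exact ⟨12 * ((q : ℤ) + 1) * d, by linear_combination (12 * ((q : ℤ) + 1)) * hd⟩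

/-- **TAME PICARD-LEFSCHETZ** (sharp form): a class fixed by the inertia group at `q` has constant slopes at `∞`. -/
theorem plTame_sharp (M q : ℕ) [NeZero M] [NeZero q] (hq : q.Prime) (hqM : ¬ q ∣ M) (h4 : 4 ∣ M)
    (A : ValuationSubring Kbar) (hA : A.LiesOverPrime q)
    (p : ℕ) [NeZero p] (hp : p.Prime) (x : KV Kbar (FN (M * q)) p)
    (hx : ∀ τ ∈ A.inertiaSubgroupIn ℚ, τ • x = x)
    (u : kummerUnits Kbar (FN (M * q)) p) (hux : KV.mk u = x)
    (hred : (Conc.R1 A M q hq hqM hA).red ((u : (FN (M * q))ˣ) : FN (M * q)) ≠ 0) :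
    ∃ κ : ℤ, SlopeSharpQ A M q p
      ((Conc.R1 A M q hq hqM hA).red ((u : (FN (M * q))ˣ) : FN (M * q))) κ := by
  haveI : Fact q.Prime := ⟨hq⟩
  haveI := Hecke.charP_residueField A hq hA
  haveI := perfectRing_residueField q A
  haveI : Lib.RR.IsFF Kbar (FN (M * q)) := Fermat.Agent.GAL.Desc.isFF_FF_Kbar (M * q)
  haveI : Lib.RR.IsFF Kbar (FN M) := Fermat.Agent.GAL.Desc.isFF_FF_Kbar M
  haveI := Igusa.isAlgClosed_residueField A
  have hM := Conc.natCast_M_ne_zero A M q hq hqM hA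
  haveI := Igusa.isFF_E (IsLocalRing.ResidueField ↥A) M hM
  have hg : Conc.GoodRed A M :=
    Conc.goodRed_of_neat A M hM Igusa.cuspUpper Igusa.cuspLower (Or.inl h4)
  obtain ⟨hMk, c, c1, -, c3⟩ := plTame_raw M q hq hqM h4 A hA hg p hp x hx u hux
  set N := (Conc.pairHyp A M q hq hqM hA hg).nodeData with hNdef
  refine ⟨c 1 - c 0, fun ψ hψ P => ⟨fun hj h0 => ?_, fun hj h0 => ?_, fun hj => ?_⟩⟩
  · by_cases hP : ∃ e, (N.p₁ e : Place (kk A) (Igusa.E (kk A) M)) = P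
    · obtain ⟨e, rfl⟩ := hP
      have key : ∀ i1 i2 : Fin 2, i1 = 0 → i2 = 1 → ∀ Q : Place (kk A) (Igusa.E (kk A) M),
          (((Conc.TT A M q hq hqM hA).R i1).red ((u : (FN (M * q))ˣ) : FN (M * q)) ≠ 0 →
            (p : ℤ) ∣ Q.ord (((Conc.TT A M q hq hqM hA).R i1).red ((u : (FN (M * q))ˣ) : FN (M * q)))
              - (c i2 - c i1)) →
          (p : ℤ) ∣ Q.ord ((Conc.R1 A M q hq hqM hA).red ((u : (FN (M * q))ˣ) : FN (M * q)))
              - (c 1 - c 0) := by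
        rintro _ _ rfl rfl Q h
        exact h hred
      exact ⟨hMk.node ψ hψ e, key _ _ (hMk.i₁ e) (hMk.i₂ e) (N.p₁ e) (c1 e)⟩
    · rw [not_exists] at hP
      exact absurd (hMk.other ψ hψ P hj hP) h0
  · refine c3 0 P (branch_ne_of_not_node hMk fun e he => ?_) hred
    have h1 := hMk.node ψ hψ e
    rw [he, h0] at h1
    have : (0 : ℤ) < 12 * ((q : ℤ) + 1) := by positivity
    omega
  · refine c3 0 P (branch_ne_of_not_node hMk fun e he => ?_) hred
    have := hMk.noncusp e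
    rw [he] at this
    exact absurd hj (not_lt.2 this)

/-- **TAME PICARD-LEFSCHETZ** (meter form). -/
theorem plTame (M q : ℕ) [NeZero M] [NeZero q] (hq : q.Prime) (hqM : ¬ q ∣ M) (h4 : 4 ∣ M)
    (A : ValuationSubring Kbar) (hA : A.LiesOverPrime q)
    (p : ℕ) [NeZero p] (hp : p.Prime) (x : KV Kbar (FN (M * q)) p)
    (hx : ∀ τ ∈ A.inertiaSubgroupIn ℚ, τ • x = x)
    (u : kummerUnits Kbar (FN (M * q)) p) (hux : KV.mk u = x)
    (hred : (Conc.R1 A M q hq hqM hA).red ((u : (FN (M * q))ˣ) : FN (M * q)) ≠ 0) :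
    ∃ κ : ℤ, SlopeMeterQ A M q p
      ((Conc.R1 A M q hq hqM hA).red ((u : (FN (M * q))ˣ) : FN (M * q))) κ := by
  obtain ⟨κ, h⟩ := plTame_sharp M q hq hqM h4 A hA p hp x hx u hux hred
  exact ⟨κ, h.slopeMeterQ⟩

end Fermat.Agent.S43.GA
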