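import Fermat.Agent.S43.GA.PairAbs
import Fermat.Agent.S41.Dual.Orth
import Fermat.Agent.DR.Hecke.Degen
import Fermat.Agent.GAL.S31.RootsOfUnity

/-!
# S43 / GA / Pair : `(φ + w_q) V_θ ⊆ ∑_{τ ∈ I_q} (τ - 1) V_θ`  from GA-core and DR2, by the Weil pairing

Level `M q`, `q ∤ M` (no neatness here), `p ≠ q` prime, `V = KV Kbar (FN (M * q)) p = J₀(M q)[p]`.
* `Uop N p ℓ a i = T_{ℓ i} - a i` on `V(N)`; `V_θ = S41.Dual.genKer (Uop (M * q) p ℓ a)` for ANY family of primes `ℓ i ∤ M q p` and integers `a i`;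
* `pair_conc` : let `Kt` be a subgroup of `V` with
    `hcore` : the `I_q`-fixed vectors of `V_θ` lie in `Kt` (GA-core),
    `hwK`   : `w_q Kt ⊆ Kt`,
    `hφK`   : `φ = - q w_q` on `Kt` (DR2);
  then `φ v + w_q v ∈ ∑_{τ ∈ I_q} (τ - 1) V_θ` for all `v ∈ V_θ`.
-/

set_option autoImplicit false
set_option linter.unusedSectionVars false
set_option linter.style.haveILetI false

noncomputable section

namespace Fermat.Agent.S43.GA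

open AlgebraicCurve ModularCurve Fermat.Agent.S24 Fermat.Agent.GAL Fermat.Agent.GAL.Hecke
  Fermat.Agent.S15.H Fermat.Agent.S41.Dual Fermat.Agent.DR

attribute [local instance] Fermat.Agent.GAL.Desc.isFF_FF_Kbar

/-- `T_{ℓ i} - a i` on `V(N)`. -/
def Uop (N p : ℕ) [NeZero N] {ι : Type*} (ℓ : ι → ℕ) (a : ι → ℤ) (i : ι) :
    KV Kbar (FN N) p →+ KV Kbar (FN N) p :=
  heckeTtot N p (ℓ i) - a i • AddMonoidHom.id _

theorem Uop_apply (N p : ℕ) [NeZero N] {ι : Type*} (ℓ : ι → ℕ) (a : ι → ℤ) (i : ι)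
    (y : KV Kbar (FN N) p) : Uop N p ℓ a i y = heckeTtot N p (ℓ i) y - a i • y := rfl

/-- the action of `σ ∈ G_ℚ` as an endomorphism of `V(N)`. -/
def galHom (N p : ℕ) [NeZero N] (σ : GQ) : KV Kbar (FN N) p →+ KV Kbar (FN N) p where
  toFun x := σ • x
  map_zero' := smul_zero σ
  map_add' := smul_add σ

@[simp] theorem galHom_apply (N p : ℕ) [NeZero N] (σ : GQ) (x : KV Kbar (FN N) p) :
    galHom N p σ x = σ • x := rfl

theorem Uop_comm (N p : ℕ) [NeZero N] (hp : p ≠ 0) {ι : Type*} (ℓ : ι → ℕ) (a : ι → ℤ)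
    (hℓ : ∀ i, (ℓ i).Prime ∧ ¬ ℓ i ∣ N) (i j : ι) (x : KV Kbar (FN N) p) :
    Uop N p ℓ a i (Uop N p ℓ a j x) = Uop N p ℓ a j (Uop N p ℓ a i x) := by
  simp only [Uop_apply, map_sub, map_zsmul, smul_sub]
  rw [heckeTtot_comm N p hp (hℓ i).1 (hℓ j).1 (hℓ i).2 (hℓ j).2, smul_comm (a i) (a j) x]
  abel

theorem Uop_selfadj (N : ℕ) [NeZero N] {p : ℕ} (hp : p.Prime) {ι : Type*} (ℓ : ι → ℕ) (a : ι → ℤ)
    (hℓ : ∀ i, (ℓ i).Prime ∧ ¬ ℓ i ∣ N ∧ ℓ i ≠ p) (i : ι) (x y : KV Kbar (FN N) p) :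
    kvPair p hp.ne_zero (Uop N p ℓ a i x) y = kvPair p hp.ne_zero x (Uop N p ℓ a i y) := by
  rw [Uop_apply, Uop_apply, sub_eq_add_neg, sub_eq_add_neg, kvPair_add_left, kvPair_add_right,
    kvPair_neg_left, kvPair_neg_right, kvPair_zsmul_left, kvPair_zsmul_right,
    heckeTtot_selfadj N hp (hℓ i).1 (hℓ i).2.1 (hℓ i).2.2]

theorem Uop_gal (N p : ℕ) [NeZero N] {ι : Type*} (ℓ : ι → ℕ) (a : ι → ℤ)
    (hℓ : ∀ i, (ℓ i).Prime) (σ : GQ) (i : ι) (x : KV Kbar (FN N) p) :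
    σ • Uop N p ℓ a i x = Uop N p ℓ a i (σ • x) := by
  haveI : NeZero (ℓ i) := ⟨(hℓ i).ne_zero⟩
  rw [Uop_apply, Uop_apply, heckeTtot_eq, heckeT_galois_smul, smul_sub, smul_comm]

/-- the Galois group preserves `V_θ`. -/
theorem gal_mem_genKer (N p : ℕ) [NeZero N] {ι : Type*} (ℓ : ι → ℕ) (a : ι → ℤ)
    (hℓ : ∀ i, (ℓ i).Prime) (σ : GQ) {x : KV Kbar (FN N) p} (hx : x ∈ genKer (Uop N p ℓ a)) :
    σ • x ∈ genKer (Uop N p ℓ a) :=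
  map_mem_genKer_of_comm (Uop N p ℓ a) (Uop N p ℓ a) (galHom N p σ)
    (fun i y => Uop_gal N p ℓ a hℓ σ i y) hx

/-- the Weil pairing is nondegenerate on `V_θ`. -/
theorem kvPair_nondeg_genKer (N : ℕ) [NeZero N] {p : ℕ} (hp : p.Prime) {ι : Type*} (ℓ : ι → ℕ)
    (a : ι → ℤ) (hℓ : ∀ i, (ℓ i).Prime ∧ ¬ ℓ i ∣ N ∧ ℓ i ≠ p) {x : KV Kbar (FN N) p}
    (hx : x ∈ genKer (Uop N p ℓ a))
    (h : ∀ y ∈ genKer (Uop N p ℓ a), kvPair p hp.ne_zero x y = 1) : x = 0 := by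
  haveI : Finite (KV Kbar (FN N) p) := finite_KV N p hp.ne_zero
  exact nondeg_genKer (kvPair p hp.ne_zero) (Uop N p ℓ a)
    (Uop_comm N p hp.ne_zero ℓ a (fun i => ⟨(hℓ i).1, (hℓ i).2.1⟩))
    (kvPair_add_left p hp.ne_zero) (kvPair_add_right p hp.ne_zero)
    (kvPair_nondeg p hp) (Uop_selfadj N hp ℓ a hℓ) hx h

variable (M q : ℕ) [NeZero M] [NeZero q] (hq : q.Prime) (hqM : ¬ q ∣ M)

include hq hqM in
theorem Uop_w {p : ℕ} {ι : Type*} (ℓ : ι → ℕ) (a : ι → ℤ)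
    (hℓ : ∀ i, (ℓ i).Prime ∧ ¬ ℓ i ∣ M * q) (i : ι) (x : KV Kbar (FN (M * q)) p) :
    wKV M q p (Uop (M * q) p ℓ a i x) = Uop (M * q) p ℓ a i (wKV M q p x) := by
  haveI : NeZero (ℓ i) := ⟨(hℓ i).1.ne_zero⟩
  rw [Uop_apply, Uop_apply, heckeTtot_eq, map_sub, map_zsmul,
    (DR.Hecke.kvDegen hq hqM).w_hecke p (ℓ i) (hℓ i).1 (hℓ i).2]

include hq hqM in
/-- **GA-PAIR.** -/
theorem pair_conc {ι : Type*} (ℓ : ι → ℕ) (a : ι → ℤ) {p : ℕ} (hp : p.Prime) (hpq : p ≠ q)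
    (hℓ : ∀ i, (ℓ i).Prime ∧ ¬ ℓ i ∣ M * q ∧ ℓ i ≠ p)
    (A : ValuationSubring Kbar) (hA : A.LiesOverPrime q) (φ : GQ) (hφ : A.IsFrobeniusAt φ q)
    (Kt : AddSubgroup (KV Kbar (FN (M * q)) p))
    (hcore : ∀ x ∈ genKer (Uop (M * q) p ℓ a),
      (∀ τ ∈ A.inertiaSubgroupIn ℚ, τ • x = x) → x ∈ Kt)
    (hwK : ∀ κ ∈ Kt, wKV M q p κ ∈ Kt)
    (hφK : ∀ κ ∈ Kt, φ • κ + q • wKV M q p κ = 0)
    {v : KV Kbar (FN (M * q)) p} (hv : v ∈ genKer (Uop (M * q) p ℓ a)) :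
    φ • v + wKV M q p v ∈ AddSubgroup.closure
      {z | ∃ τ ∈ A.inertiaSubgroupIn ℚ, ∃ y ∈ genKer (Uop (M * q) p ℓ a), z = τ • y - y} := by
  haveI : Finite (KV Kbar (FN (M * q)) p) := finite_KV (M * q) p hp.ne_zero
  have hℓ1 : ∀ i, (ℓ i).Prime := fun i => (hℓ i).1
  have hqp : ¬ q ∣ p := fun h => hpq ((Nat.prime_dvd_prime_iff_eq hq hp).1 h).symm
  have he : PairAbs.IsPairing (kvPair (K := Kbar) (F := FN (M * q)) p hp.ne_zero) :=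
    ⟨kvPair_add_left p hp.ne_zero, kvPair_add_right p hp.ne_zero,
      fun x y => kvPair_swap p hp.ne_zero x y⟩
  have key := PairAbs.pair_main_sub (genKer (Uop (M * q) p ℓ a)) he
    (fun x hx h => kvPair_nondeg_genKer (M * q) hp ℓ a hℓ hx h)
    {s | ∃ τ ∈ A.inertiaSubgroupIn ℚ, s = galHom (M * q) p τ}
    (by
      rintro s ⟨τ, -, rfl⟩ x hx
      exact gal_mem_genKer (M * q) p ℓ a hℓ1 τ hx)
    (by
      rintro s ⟨τ, hτ, rfl⟩ x y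
      apply Units.ext
      rw [galHom_apply, galHom_apply, kvPair_gal]
      refine Fermat.Agent.GAL.S31.inertia_apply_root A hq hA hτ hqp ?_
      rw [← Units.val_pow_eq_pow_val, kvPair_pow, Units.val_one])
    (by
      rintro s ⟨τ, -, rfl⟩ y hy
      exact ⟨τ⁻¹ • y, gal_mem_genKer (M * q) p ℓ a hℓ1 τ⁻¹ hy, smul_inv_smul τ y⟩)
    Kt
    (by
      intro x hx h
      exact hcore x hx (fun τ hτ => h _ ⟨τ, hτ, rfl⟩))
    (galHom (M * q) p φ) (wKV M q p)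
    (fun x hx => gal_mem_genKer (M * q) p ℓ a hℓ1 φ hx)
    (fun x hx => map_mem_genKer_of_comm (Uop (M * q) p ℓ a) (Uop (M * q) p ℓ a) (wKV M q p)
      (fun i y => Uop_w M q hq hqM ℓ a (fun i => ⟨(hℓ i).1, (hℓ i).2.1⟩) i y) hx)
    (p := p) (q := q) (kvPair_pow p hp.ne_zero)
    ((Nat.coprime_primes hp hq).2 hpq)
    (fun x y => kvPair_frob (M * q) hp hq (Ne.symm hpq) hA hφ x y)
    (by
      intro x y
      rw [DR.Hecke.interface_wKV_eq hq hqM]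
      exact orth_w hq hqM p hp.ne_zero x y)
    (wKV_wKV M q p) hwK hφK hv
  refine AddSubgroup.closure_mono ?_ key
  rintro z ⟨s, ⟨τ, hτ, rfl⟩, y, hy, rfl⟩
  exact ⟨τ, hτ, y, hy, rfl⟩

end Fermat.Agent.S43.GA
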