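import Mathlib

/-!
# S43 / GA / PairAbs : duality in a finite abelian group with a nondegenerate pairing.  PURE MATHLIB.

`V` a finite abelian group, `e : V → V → Kˣ` bimultiplicative, antisymmetric (`e y x = (e x y)⁻¹`), nondegenerate.
* `card_hom_le`     : (Dedekind) `#Hom(G, Kˣ) ≤ #G`;
* `perp e H`        : the orthogonal of `H`;  `perp_perp : perp (perp H) = H`;
* `perp_fixed`      : `(V^Σ)^⊥ = ∑_{s ∈ Σ} (s - 1) V` for a set `Σ` of surjective isometries;
* `pair_main`       : if `V^Σ ≤ Kt`, `w Kt ≤ Kt`, `φ = - q w` on `Kt`, `e(φ x, φ y) = e(x, y) ^ q`, `w` an isometric involution,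
  the values of `e` are killed by `p` prime to `q`, then `(φ + w) V ≤ ∑_{s ∈ Σ} (s - 1) V`.
-/

set_option autoImplicit false

namespace Fermat.Agent.S43.GA.PairAbs

/-- Dedekind: a finite abelian group `G` has at most `#G` characters with values in a field. -/
theorem card_hom_le (G K : Type*) [AddCommGroup G] [Finite G] [Field K] :
    Finite (G →+ Additive Kˣ) ∧ Nat.card (G →+ Additive Kˣ) ≤ Nat.card G := by
  classical
  have := Fintype.ofFinite G
  have hli := linearIndependent_monoidHom (Multiplicative G) K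
  have hfin : Finite (Multiplicative G →* K) := hli.finite
  have := Fintype.ofFinite (Multiplicative G →* K)
  have h1 := hli.fintype_card_le_finrank
  have h2 : Module.finrank K (Multiplicative G → K) = Nat.card G := by
    rw [Module.finrank_fintype_fun_eq_card, Nat.card_eq_fintype_card]
    exact Fintype.card_multiplicative G
  let j : (G →+ Additive Kˣ) → (Multiplicative G →* K) := fun f =>
    { toFun := fun g => (((f (Multiplicative.toAdd g)).toMul : Kˣ) : K)
      map_one' := by simp
      map_mul' := by intro a b; simp }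
  have hj : Function.Injective j := by
    intro f f' hff
    ext g
    have := DFunLike.congr_fun hff (Multiplicative.ofAdd g)
    exact this
  have hfin' : Finite (G →+ Additive Kˣ) := Finite.of_injective j hj
  refine ⟨hfin', ?_⟩
  calc Nat.card (G →+ Additive Kˣ) ≤ Nat.card (Multiplicative G →* K) :=
        Nat.card_le_card_of_injective j hj
    _ = Fintype.card (Multiplicative G →* K) := Nat.card_eq_fintype_card
    _ ≤ _ := h1
    _ = Nat.card G := h2

variable {V K : Type*} [AddCommGroup V] [Field K]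

/-- bimultiplicative antisymmetric pairings. -/
structure IsPairing (e : V → V → Kˣ) : Prop where
  add_left : ∀ x y z, e (x + y) z = e x z * e y z
  add_right : ∀ x y z, e x (y + z) = e x y * e x z
  swap : ∀ x y, e y x = (e x y)⁻¹

namespace IsPairing

variable {e : V → V → Kˣ} (he : IsPairing e)

include he

theorem zero_left (y : V) : e 0 y = 1 := by
  have h := he.add_left 0 0 y
  rw [add_zero] at h
  exact (mul_eq_left.mp h.symm)

theorem zero_right (x : V) : e x 0 = 1 := by
  have h := he.add_right x 0 0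
  rw [add_zero] at h
  exact (mul_eq_left.mp h.symm)

theorem neg_left (x y : V) : e (-x) y = (e x y)⁻¹ := by
  have h := he.add_left (-x) x y
  rw [neg_add_cancel, he.zero_left] at h
  exact eq_inv_of_mul_eq_one_left h.symm

theorem neg_right (x y : V) : e x (-y) = (e x y)⁻¹ := by
  have h := he.add_right x (-y) y
  rw [neg_add_cancel, he.zero_right] at h
  exact eq_inv_of_mul_eq_one_left h.symm

theorem sub_left (x y z : V) : e (x - y) z = e x z / e y z := by
  rw [sub_eq_add_neg, he.add_left, he.neg_left, div_eq_mul_inv]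

theorem sub_right (x y z : V) : e x (y - z) = e x y / e x z := by
  rw [sub_eq_add_neg, he.add_right, he.neg_right, div_eq_mul_inv]

theorem nsmul_right (x y : V) (n : ℕ) : e x (n • y) = e x y ^ n := by
  induction n with
  | zero => rw [zero_nsmul, he.zero_right, pow_zero]
  | succ n ih => rw [succ_nsmul, he.add_right, ih, pow_succ]

theorem eq_one_comm (x y : V) : e x y = 1 ↔ e y x = 1 := by
  rw [he.swap x y, inv_eq_one]

/-- `y ↦ e x y` as a homomorphism. -/
def homRight (x : V) : V →+ Additive Kˣ where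
  toFun y := Additive.ofMul (e x y)
  map_zero' := by rw [he.zero_right]; rfl
  map_add' y z := by rw [he.add_right]; rfl

/-- the orthogonal of a subgroup. -/
def perp (H : AddSubgroup V) : AddSubgroup V where
  carrier := {y | ∀ x ∈ H, e x y = 1}
  zero_mem' := fun x _ => he.zero_right x
  add_mem' := by
    intro a b ha hb x hx
    rw [he.add_right, ha x hx, hb x hx, one_mul]
  neg_mem' := by
    intro a ha x hx
    rw [he.neg_right, ha x hx, inv_one]

theorem mem_perp {H : AddSubgroup V} {y : V} : y ∈ he.perp H ↔ ∀ x ∈ H, e x y = 1 := Iff.rfl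

theorem le_perp_perp (H : AddSubgroup V) : H ≤ he.perp (he.perp H) := by
  intro x hx y hy
  rw [he.eq_one_comm]
  exact hy x hx

theorem perp_anti {H H' : AddSubgroup V} (h : H ≤ H') : he.perp H' ≤ he.perp H :=
  fun _ hy x hx => hy x (h hx)

variable [Finite V]

/-- `#V ≤ #H · #H^⊥`. -/
theorem card_le_mul_perp (H : AddSubgroup V) :
    Nat.card V ≤ Nat.card H * Nat.card (he.perp H) := by
  let f : V →+ (H →+ Additive Kˣ) :=
    { toFun := fun y =>
        { toFun := fun x => Additive.ofMul (e (x : V) y)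
          map_zero' := by
            show Additive.ofMul (e (0 : V) y) = 0
            rw [he.zero_left]; rfl
          map_add' := fun a b => by
            show Additive.ofMul (e ((a : V) + (b : V)) y) = _
            rw [he.add_left]; rfl }
      map_zero' := by
        refine AddMonoidHom.ext fun x => ?_
        show Additive.ofMul (e (x : V) 0) = 0
        rw [he.zero_right]; rfl
      map_add' := fun a b => by
        refine AddMonoidHom.ext fun x => ?_
        show Additive.ofMul (e (x : V) (a + b)) = Additive.ofMul (e (x : V) a * e (x : V) b)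
        rw [he.add_right] }
  have hker : f.ker = he.perp H := by
    ext y
    rw [AddMonoidHom.mem_ker, he.mem_perp]
    constructor
    · intro h x hx
      have := DFunLike.congr_fun h (⟨x, hx⟩ : H)
      exact this
    · intro h
      ext x
      exact congrArg Units.val (h x x.2)
  obtain ⟨hfin, hcard⟩ := card_hom_le H K
  have h1 : Nat.card f.range ≤ Nat.card H :=
    (Nat.card_le_card_of_injective _ Subtype.val_injective).trans hcard
  have h2 := AddSubgroup.card_mul_index f.ker
  rw [AddSubgroup.index_ker, hker] at h2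
  rw [← h2, mul_comm]
  exact Nat.mul_le_mul_right _ h1

/-- `#H · #H^⊥ ≤ #V` for a nondegenerate pairing. -/
theorem mul_perp_le (hnd : ∀ x, (∀ y, e x y = 1) → x = 0) (H : AddSubgroup V) :
    Nat.card H * Nat.card (he.perp H) ≤ Nat.card V := by
  let g : H → (V ⧸ he.perp H →+ Additive Kˣ) := fun x =>
    QuotientAddGroup.lift (he.perp H) (he.homRight (x : V)) (fun y hy => by
      show Additive.ofMul (e (x : V) y) = 0
      rw [hy x x.2]; rfl)
  have hg : Function.Injective g := by
    intro x x' hxx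
    apply Subtype.ext
    rw [← sub_eq_zero]
    apply hnd
    intro y
    have h1 := DFunLike.congr_fun hxx (QuotientAddGroup.mk y)
    have h2 : e (x : V) y = e (x' : V) y := h1
    rw [he.sub_left, h2, div_self']
  obtain ⟨hfin, hcard⟩ := card_hom_le (V ⧸ he.perp H) K
  have h1 : Nat.card H ≤ (he.perp H).index :=
    (Nat.card_le_card_of_injective g hg).trans hcard
  rw [← AddSubgroup.card_mul_index (he.perp H), mul_comm]
  exact Nat.mul_le_mul_left _ h1

/-- **Biduality.** -/
theorem perp_perp (hnd : ∀ x, (∀ y, e x y = 1) → x = 0) (H : AddSubgroup V) :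
    he.perp (he.perp H) = H := by
  have h1 := he.card_le_mul_perp H
  have h2 := he.mul_perp_le hnd (he.perp H)
  have hpos : 0 < Nat.card (he.perp H) := Nat.card_pos
  have h3 : Nat.card (he.perp (he.perp H)) ≤ Nat.card H := by
    have : Nat.card (he.perp H) * Nat.card (he.perp (he.perp H))
        ≤ Nat.card (he.perp H) * Nat.card H := by
      rw [mul_comm _ (Nat.card H)]
      exact h2.trans h1
    exact Nat.le_of_mul_le_mul_left this hpos
  exact (AddSubgroup.eq_of_le_of_card_ge (he.le_perp_perp H) h3).symm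

end IsPairing

/-- the common fixed points of a set of endomorphisms. -/
def fixedSub (S : Set (V →+ V)) : AddSubgroup V where
  carrier := {x | ∀ s ∈ S, s x = x}
  zero_mem' := fun s _ => map_zero s
  add_mem' := by
    intro a b ha hb s hs
    rw [map_add, ha s hs, hb s hs]
  neg_mem' := by
    intro a ha s hs
    rw [map_neg, ha s hs]

/-- `∑_{s ∈ S} (s - 1) V`. -/
def augSub (S : Set (V →+ V)) : AddSubgroup V :=
  AddSubgroup.closure {z | ∃ s ∈ S, ∃ y, z = s y - y}

theorem mem_fixedSub {S : Set (V →+ V)} {x : V} : x ∈ fixedSub S ↔ ∀ s ∈ S, s x = x := Iff.rfl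

section main

variable {e : V → V → Kˣ} (he : IsPairing e)

include he

theorem perp_augSub (hnd : ∀ x, (∀ y, e x y = 1) → x = 0) (S : Set (V →+ V))
    (hiso : ∀ s ∈ S, ∀ x y, e (s x) (s y) = e x y) (hsurj : ∀ s ∈ S, Function.Surjective s) :
    he.perp (augSub S) = fixedSub S := by
  ext y
  rw [he.mem_perp, mem_fixedSub]
  constructor
  · intro h s hs
    rw [← sub_eq_zero]
    apply hnd
    intro z
    rw [he.eq_one_comm]
    obtain ⟨x, rfl⟩ := hsurj s hs z
    have h1 := h (s x - x) (AddSubgroup.subset_closure ⟨s, hs, x, rfl⟩)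
    rw [he.sub_left, div_eq_one] at h1
    rw [he.sub_right, hiso s hs, h1, div_self']
  · intro h x hx
    induction hx using AddSubgroup.closure_induction with
    | mem z hz =>
      obtain ⟨s, hs, x, rfl⟩ := hz
      rw [he.sub_left, div_eq_one]
      conv_lhs => rw [← h s hs]
      exact hiso s hs x y
    | zero => exact he.zero_left y
    | add a b _ _ ha hb => rw [he.add_left, ha, hb, one_mul]
    | neg a _ ha => rw [he.neg_left, ha, inv_one]

variable [Finite V]

/-- `(V^S)^⊥ = ∑ (s - 1) V`. -/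
theorem perp_fixedSub (hnd : ∀ x, (∀ y, e x y = 1) → x = 0) (S : Set (V →+ V))
    (hiso : ∀ s ∈ S, ∀ x y, e (s x) (s y) = e x y) (hsurj : ∀ s ∈ S, Function.Surjective s) :
    he.perp (fixedSub S) = augSub S := by
  rw [← perp_augSub he hnd S hiso hsurj, he.perp_perp hnd]

/-- **GA-PAIR.** -/
theorem pair_main (hnd : ∀ x, (∀ y, e x y = 1) → x = 0) (S : Set (V →+ V))
    (hiso : ∀ s ∈ S, ∀ x y, e (s x) (s y) = e x y) (hsurj : ∀ s ∈ S, Function.Surjective s)
    (Kt : AddSubgroup V) (hfix : fixedSub S ≤ Kt) (φ w : V →+ V) {p q : ℕ}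
    (hp : ∀ x y, e x y ^ p = 1) (hpq : Nat.Coprime p q)
    (hφ : ∀ x y, e (φ x) (φ y) = e x y ^ q) (hw : ∀ x y, e (w x) (w y) = e x y)
    (hww : ∀ x, w (w x) = x) (hwK : ∀ κ ∈ Kt, w κ ∈ Kt) (hφK : ∀ κ ∈ Kt, φ κ + q • w κ = 0)
    (v : V) : φ v + w v ∈ augSub S := by
  rw [← perp_fixedSub he hnd S hiso hsurj]
  refine he.perp_anti hfix ?_
  intro κ hκ
  rw [he.eq_one_comm, he.add_left]
  -- `φ (w κ) = - q κ`
  have h1 : φ (w κ) = -(q • κ) := by
    have := hφK (w κ) (hwK κ hκ)
    rw [hww] at this
    exact eq_neg_of_add_eq_zero_left this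
  have h2 := hφ v (w κ)
  rw [h1, he.neg_right, he.nsmul_right] at h2
  have h3 : e v (w κ) = e (w v) κ := by
    rw [← hw v (w κ), hww]
  rw [h3] at h2
  have h4 : (e (φ v) κ * e (w v) κ) ^ q = 1 := by
    rw [mul_pow, ← h2, mul_inv_cancel]
  have h5 : (e (φ v) κ * e (w v) κ) ^ p = 1 := by
    rw [mul_pow, hp, hp, one_mul]
  have h6 := orderOf_dvd_of_pow_eq_one h4
  have h7 := orderOf_dvd_of_pow_eq_one h5
  have h8 : orderOf (e (φ v) κ * e (w v) κ) = 1 :=
    Nat.eq_one_of_dvd_coprimes hpq h7 h6
  exact orderOf_eq_one_iff.1 h8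

end main

section sub

variable {B : Type*} [AddCommGroup B]

/-- restriction of an endomorphism to a stable subgroup. -/
def res (W : AddSubgroup B) (g : B →+ B) (hg : ∀ x ∈ W, g x ∈ W) : W →+ W :=
  (g.comp W.subtype).codRestrict W (fun x => hg x x.2)

@[simp] theorem coe_res (W : AddSubgroup B) (g : B →+ B) (hg : ∀ x ∈ W, g x ∈ W) (x : W) :
    ((res W g hg x : W) : B) = g x := rfl

/-- **GA-PAIR on a stable subgroup `W` of `B`** on which the pairing is nondegenerate. -/
theorem pair_main_sub (W : AddSubgroup B) [Finite W] {e : B → B → Kˣ} (he : IsPairing e)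
    (hnd : ∀ x ∈ W, (∀ y ∈ W, e x y = 1) → x = 0) (S : Set (B →+ B))
    (hSW : ∀ s ∈ S, ∀ x ∈ W, s x ∈ W) (hiso : ∀ s ∈ S, ∀ x y, e (s x) (s y) = e x y)
    (hsurj : ∀ s ∈ S, ∀ y ∈ W, ∃ x ∈ W, s x = y)
    (Kt : AddSubgroup B) (hfix : ∀ x ∈ W, (∀ s ∈ S, s x = x) → x ∈ Kt) (φ w : B →+ B)
    (hφW : ∀ x ∈ W, φ x ∈ W) (hwW : ∀ x ∈ W, w x ∈ W) {p q : ℕ}
    (hp : ∀ x y, e x y ^ p = 1) (hpq : Nat.Coprime p q)
    (hφ : ∀ x y, e (φ x) (φ y) = e x y ^ q) (hw : ∀ x y, e (w x) (w y) = e x y)
    (hww : ∀ x, w (w x) = x) (hwK : ∀ κ ∈ Kt, w κ ∈ Kt) (hφK : ∀ κ ∈ Kt, φ κ + q • w κ = 0)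
    {v : B} (hv : v ∈ W) :
    φ v + w v ∈ AddSubgroup.closure {z | ∃ s ∈ S, ∃ y ∈ W, z = s y - y} := by
  let e' : W → W → Kˣ := fun x y => e x y
  have he' : IsPairing e' :=
    ⟨fun x y z => he.add_left _ _ _, fun x y z => he.add_right _ _ _, fun x y => he.swap _ _⟩
  let S' : Set (W →+ W) := {t | ∃ s, ∃ hs : s ∈ S, t = res W s (hSW s hs)}
  have key := pair_main (e := e') he'
    (fun x hx => Subtype.ext (hnd x x.2 (fun y hy => hx ⟨y, hy⟩))) S'
    (by
      rintro t ⟨s, hs, rfl⟩ x y
      exact hiso s hs x y)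
    (by
      rintro t ⟨s, hs, rfl⟩ y
      obtain ⟨x, hx, hxy⟩ := hsurj s hs y y.2
      exact ⟨⟨x, hx⟩, Subtype.ext hxy⟩)
    (Kt.addSubgroupOf W)
    (by
      intro x hx
      rw [AddSubgroup.mem_addSubgroupOf]
      refine hfix x x.2 (fun s hs => ?_)
      exact congrArg Subtype.val (hx (res W s (hSW s hs)) ⟨s, hs, rfl⟩))
    (res W φ hφW) (res W w hwW) (p := p) (q := q) (fun x y => hp _ _) hpq
    (fun x y => hφ _ _) (fun x y => hw _ _) (fun x => Subtype.ext (hww _))
    (by
      intro κ hκ
      rw [AddSubgroup.mem_addSubgroupOf] at hκ ⊢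
      exact hwK _ hκ)
    (by
      intro κ hκ
      rw [AddSubgroup.mem_addSubgroupOf] at hκ
      exact Subtype.ext (hφK _ hκ))
    ⟨v, hv⟩
  have hmap : ∀ z ∈ augSub S',
      ((z : W) : B) ∈ AddSubgroup.closure {z | ∃ s ∈ S, ∃ y ∈ W, z = s y - y} := by
    intro z hz
    induction hz using AddSubgroup.closure_induction with
    | mem z hz =>
      obtain ⟨t, ⟨s, hs, rfl⟩, y, rfl⟩ := hz
      exact AddSubgroup.subset_closure ⟨s, hs, y, y.2, rfl⟩
    | zero => exact zero_mem _
    | add a b _ _ ha hb => exact add_mem ha hb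
    | neg a _ ha => exact neg_mem ha
  exact hmap _ key

end sub

end Fermat.Agent.S43.GA.PairAbs
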