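import Fermat.Agent.S43.GA.RedHeckeM
import Fermat.Agent.S43.GA.EisQ
import Fermat.Agent.S43.GoodRed.Conc
import Fermat.Agent.MR.Glue.Defs

/-!
# S43 / GA / RedBar : a system of eigenvalues which does not occur in `V_p(F(M))` does not occur in `V_p(E k M)` (neat level `M`)

`A` a valuation subring of `ℚ̄` over the prime `q ∤ M`, `k` its residue field, `p ≠ q` a prime, `M` neat.

* `inj_RMq` : a Kummer unit of `FN M` whose reduction is a `p`-th power is a `p`-th power (`RED.inj`);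
* `redBar`  : (BAR shape) `v ∈ E k M`, `v ≠ 0`, all orders divisible by `p`, `T̄_l v = v ^ (a l) * h ^ p` for the primes `l ∤ M q`, `l ∉ S`,
  `q ∈ S`, `eigenKV M p S a = ⊥`  ⟹  `v` is a `p`-th power.
-/

set_option autoImplicit false
set_option linter.style.haveILetI false
set_option linter.unusedSectionVars false

noncomputable section

namespace Fermat.Agent.S43.GA

open AlgebraicCurve ModularCurve Fermat.Agent.S24 Fermat.Agent.GAL Fermat.Agent.GAL.Hecke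
  Fermat.Agent.GAL.Igusa Fermat.Agent.GAL.RED Fermat.Agent.GAL.Gauss Fermat.Agent.DR
  Fermat.Agent.DR.Gal Fermat.Agent.MR Fermat.Agent.MR.Eis Fermat.Agent.MR.Glue Fermat.Agent.Lib.RR

variable (A : ValuationSubring Kbar) (M q : ℕ) [NeZero M] [NeZero q] (hq : q.Prime)
  (hqM : ¬ q ∣ M) (hA : A.LiesOverPrime q)

/-- injectivity of the reduction, on functions. -/
theorem inj_RMq (hneat : 4 ∣ M ∨ 9 ∣ M) (p : ℕ) (hp : p.Prime) (hpq : p ≠ q) (f : FN M)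
    (hdiv : ∀ P : Place Kbar (FN M), (p : ℤ) ∣ P.ord f) (h : E (kk A) M) (hh : h ≠ 0)
    (hred : (Conc.RMq A M q hq hqM hA).red f = h ^ p) : ∃ w : FN M, f = w ^ p := by
  haveI := Hecke.charP_residueField A hq hA
  haveI := GoodRed.isFF_kap A M q hq hqM hA
  haveI : IsAlgClosed (kk A) := Igusa.isAlgClosed_residueField A
  haveI := Desc.isFF_FF_Kbar M
  have hG := GoodRed.good_RMq A M q hq hqM hA hneat
  refine RED.inj (Conc.RMq A M q hq hqM hA) hG.1 hG.2 p ?_ f hdiv h hh hred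
  rw [Ne, CharP.cast_eq_zero_iff (kk A) q]
  intro hd
  exact hpq ((Nat.prime_dvd_prime_iff_eq hq hp).mp hd).symm

/-- lifting, on functions. -/
theorem exists_lift_fn (hneat : 4 ∣ M ∨ 9 ∣ M) (p : ℕ) (hp : p.Prime) (hpq : p ≠ q)
    (v : E (kk A) M) (hv : v ≠ 0) (hdiv : MDiv A M p v) :
    ∃ (z : FN M) (g : E (kk A) M), g ≠ 0 ∧ (∀ P : Place Kbar (FN M), (p : ℤ) ∣ P.ord z) ∧
      (Conc.RMq A M q hq hqM hA).red z = g ^ p * v := by
  have e : p ^ 1 = p := pow_one p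
  obtain ⟨u, g, hug⟩ := GoodRed.exists_lift_RMq A M q hq hqM hA hneat p hp hpq 1
    ⟨Units.mk0 v hv, fun P => by
      rw [e]
      exact hdiv P⟩
  refine ⟨((u : (FN M)ˣ) : FN M), (g : E (kk A) M), Units.ne_zero _, fun P => ?_, ?_⟩
  · have h1 := u.2 P
    have e' : ((p ^ 1 : ℕ) : ℤ) = (p : ℤ) := by rw [e]
    rw [← e']
    exact h1
  · have e2 : (g : E (kk A) M) ^ (p ^ 1) * v = (g : E (kk A) M) ^ p * v := by rw [e]
    exact hug.trans e2

/-- one Hecke operator. -/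
theorem eigen_step (hneat : 4 ∣ M ∨ 9 ∣ M) (p : ℕ) (hp : p.Prime) (hpq : p ≠ q)
    (l : ℕ) [NeZero l] (hl : l.Prime) (hlMq : ¬ l ∣ M * q) (al : ℤ)
    (v g h : E (kk A) M) (hv : v ≠ 0) (hg0 : g ≠ 0) (hh0 : h ≠ 0)
    (hTv : TBar (kk A) M l v = v ^ al * h ^ p) (z : FN M)
    (hzdiv : ∀ P : Place Kbar (FN M), (p : ℤ) ∣ P.ord z)
    (hug : (Conc.RMq A M q hq hqM hA).red z = g ^ p * v) :
    ∃ w : FN M, w ≠ 0 ∧ heckeNorm Kbar M l z = w ^ p * z ^ al := by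
  have hM : ((M : ℕ) : kk A) ≠ 0 := Conc.natCast_M_ne_zero A M q hq hqM hA
  have hlM : ¬ l ∣ M := fun hd => hlMq (hd.mul_right q)
  have hrz : (Conc.RMq A M q hq hqM hA).red z ≠ 0 := by
    rw [hug]
    exact mul_ne_zero (pow_ne_zero _ hg0) hv
  have hz0 : z ≠ 0 := (Conc.RMq A M q hq hqM hA).ne_zero_of_red_ne_zero hrz
  have hMl : ((M * l : ℕ) : kk A) ≠ 0 := natCast_Ml_ne_zero A M q hq hqM hA l hl hlMq
  obtain ⟨-, hN2⟩ := red_heckeNorm_TBar_M A M l hM hMl hl hlM z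
    ((Conc.RMq A M q hq hqM hA).mem_of_red_ne_zero hrz)
  have hNne : (Conc.RMq A M q hq hqM hA).red (heckeNorm Kbar M l z) ≠ 0 := by
    rw [hN2]
    exact TBar_ne_zero _ M l hrz
  have hza : (Conc.RMq A M q hq hqM hA).red (z ^ (-al)) ≠ 0 := by
    rw [(Conc.RMq A M q hq hqM hA).red_zpow hrz]
    exact zpow_ne_zero _ hrz
  have hred : (Conc.RMq A M q hq hqM hA).red (heckeNorm Kbar M l z * z ^ (-al)) =
      (TBar (kk A) M l g * h ^ 1 * g ^ (-al)) ^ p := by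
    rw [(Conc.RMq A M q hq hqM hA).red_mul ((Conc.RMq A M q hq hqM hA).mem_of_red_ne_zero hNne)
      ((Conc.RMq A M q hq hqM hA).mem_of_red_ne_zero hza), hN2,
      (Conc.RMq A M q hq hqM hA).red_zpow hrz,
      hug, map_mul, map_pow, hTv, ← alg_eigen _ v h _ hv al p 1, pow_one, pow_one]
  have hNz0 : heckeNorm Kbar M l z ≠ 0 := (Conc.RMq A M q hq hqM hA).ne_zero_of_red_ne_zero hNne
  have hNdiv : ∀ P : Place Kbar (FN M), (p : ℤ) ∣ P.ord (heckeNorm Kbar M l z) :=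
    fun P => heckeNormPreserves M l p (Units.mk0 z hz0) hzdiv P
  obtain ⟨w, hw⟩ := inj_RMq A M q hq hqM hA hneat p hp hpq
    (heckeNorm Kbar M l z * z ^ (-al)) (fun P => by
      rw [P.ord_mul hNz0 (zpow_ne_zero _ hz0), P.ord_zpow]
      exact dvd_add (hNdiv P) (dvd_mul_of_dvd_right (hzdiv P) _))
    _ (by
      refine mul_ne_zero (mul_ne_zero (TBar_ne_zero _ M l hg0) (pow_ne_zero _ hh0))
        (zpow_ne_zero _ hg0)) hred
  have hw0 : w ≠ 0 := by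
    rintro rfl
    rw [zero_pow hp.ne_zero] at hw
    exact mul_ne_zero hNz0 (zpow_ne_zero _ hz0) hw
  refine ⟨w, hw0, ?_⟩
  rw [← hw, mul_assoc, ← zpow_add₀ hz0, neg_add_cancel, zpow_zero, mul_one]

/-- from functions to classes. -/
theorem heckeT_mk_eq (p l : ℕ) [NeZero l] (al : ℤ) (zU : kummerUnits Kbar (FN M) p) (w : FN M)
    (hw0 : w ≠ 0)
    (h : heckeNorm Kbar M l ((zU : (FN M)ˣ) : FN M) = w ^ p * ((zU : (FN M)ˣ) : FN M) ^ al) :
    heckeT Kbar M l p (KV.mk zU) = al • KV.mk zU := by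
  rw [heckeT_mk (heckeNormPreserves M l p) zU, ← KV_mk_zpow, KV.mk_eq_mk_iff]
  refine ⟨Units.mk0 w hw0, Units.ext ?_⟩
  simpa [Units.val_zpow_eq_zpow_val] using h.symm

include hq hqM hA in
/-- **RED-ISO, bar shape.** -/
theorem redBar (hneat : 4 ∣ M ∨ 9 ∣ M) (p : ℕ) (hp : p.Prime) (hpq : p ≠ q) (S : Finset ℕ)
    (hqS : q ∈ S) (a : ℕ → ℤ) (h0 : eigenKV M p S a = ⊥)
    (v : E (kk A) M) (hv : v ≠ 0) (hdiv : MDiv A M p v)
    (heig : ∀ (l : ℕ) [NeZero l], l.Prime → ¬ l ∣ M * q → l ∉ S →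
      ∃ h : E (kk A) M, h ≠ 0 ∧ TBar (kk A) M l v = v ^ (a l) * h ^ p) :
    ∃ w : E (kk A) M, v = w ^ p := by
  obtain ⟨z, g, hg0, hzdiv, hug⟩ := exists_lift_fn A M q hq hqM hA hneat p hp hpq v hv hdiv
  have hrz : (Conc.RMq A M q hq hqM hA).red z ≠ 0 := by
    rw [hug]
    exact mul_ne_zero (pow_ne_zero _ hg0) hv
  have hz0 : z ≠ 0 := (Conc.RMq A M q hq hqM hA).ne_zero_of_red_ne_zero hrz
  have hmem : KV.mk (⟨Units.mk0 z hz0, hzdiv⟩ : kummerUnits Kbar (FN M) p) ∈ eigenKV M p S a := by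
    rw [mem_eigenKV]
    intro l _ hl hlM hlS
    have hlq : l ≠ q := fun h => hlS (h ▸ hqS)
    have hlMq : ¬ l ∣ M * q := by
      intro hd
      rcases (Nat.Prime.dvd_mul hl).mp hd with h | h
      · exact hlM h
      · exact hlq ((Nat.prime_dvd_prime_iff_eq hl hq).mp h)
    obtain ⟨h, hh0, hTv⟩ := heig l hl hlMq hlS
    obtain ⟨w, hw0, hw⟩ := eigen_step A M q hq hqM hA hneat p hp hpq l hl hlMq (a l) v g h hv hg0
      hh0 hTv z hzdiv hug
    exact heckeT_mk_eq M p l (a l) _ w hw0 hw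
  rw [h0, AddSubgroup.mem_bot, KV.mk_eq_zero_iff] at hmem
  obtain ⟨y, hy⟩ := hmem
  have hy' : (y : FN M) ^ p = z := by
    have := congrArg (fun t : (FN M)ˣ => (t : FN M)) hy
    simpa using this
  have h1 : (Conc.RMq A M q hq hqM hA).red (y : FN M) ^ p = g ^ p * v := by
    rw [← (Conc.RMq A M q hq hqM hA).red_pow, hy', hug]
  refine ⟨(Conc.RMq A M q hq hqM hA).red (y : FN M) / g, ?_⟩
  rw [div_pow, h1, mul_div_cancel_left₀ _ (pow_ne_zero _ hg0)]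

end Fermat.Agent.S43.GA
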