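import Fermat.Agent.MR.Eis.Main
import Fermat.Agent.DR.Conc.Level

/-!
# S43 / GA / RedHeckeM : the Gauss reduction `RM` of `FN M` (good reduction, `q ∤ M`) commutes with the multiplicative Hecke operators

* `red_heckeNorm_TBar_M` : `(RM A M hM).red (heckeNorm Kbar M l u) = TBar (kk A) M l ((RM A M hM).red u)` for `u ∈ O`, `l ∤ M` prime, `M l` invertible
  in the residue field (port of `MR.Eis.red_heckeNorm_TBar`, which is the same statement for `R1` at the level `M q`);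
* `alg_eigen`, `alg_root` : two identities on `p`-th powers.
-/

set_option autoImplicit false
set_option linter.style.haveILetI false
set_option linter.unusedSectionVars false

noncomputable section

namespace Fermat.Agent.S43.GA

open AlgebraicCurve ModularCurve Fermat.Agent.S24 Fermat.Agent.GAL Fermat.Agent.GAL.Hecke
  Fermat.Agent.GAL.Igusa Fermat.Agent.GAL.RED Fermat.Agent.GAL.Gauss Fermat.Agent.DR
  Fermat.Agent.DR.Gal Fermat.Agent.MR Fermat.Agent.MR.Eis Fermat.Agent.Lib.RR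

section Alg

variable {F : Type*} [Field F]

theorem alg_eigen (Tg v hl g : F) (hv : v ≠ 0) (a : ℤ) (p d : ℕ) :
    Tg ^ p * (v ^ a * hl ^ p) ^ d * (g ^ p * v ^ d) ^ (-a) = (Tg * hl ^ d * g ^ (-a)) ^ p := by
  have e0 : (v ^ a) ^ d * (v ^ d) ^ (-a) = 1 := by
    rw [← zpow_natCast (v ^ a) d, ← zpow_mul, ← zpow_natCast v d, ← zpow_mul, ← zpow_add₀ hv]
    have : a * (d : ℤ) + (d : ℤ) * -a = 0 := by ring
    rw [this, zpow_zero]
  have e1 : (hl ^ p) ^ d = (hl ^ d) ^ p := by rw [← pow_mul, ← pow_mul, mul_comm]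
  have e2 : (g ^ p) ^ (-a) = (g ^ (-a)) ^ p := by
    rw [← zpow_natCast g p, ← zpow_mul, ← zpow_natCast (g ^ (-a)) p, ← zpow_mul, mul_comm]
  calc Tg ^ p * (v ^ a * hl ^ p) ^ d * (g ^ p * v ^ d) ^ (-a)
      = Tg ^ p * (hl ^ d) ^ p * (g ^ (-a)) ^ p * ((v ^ a) ^ d * (v ^ d) ^ (-a)) := by
        rw [mul_pow, mul_zpow, e1, e2]; ring
    _ = (Tg * hl ^ d * g ^ (-a)) ^ p := by rw [e0, mul_one, mul_pow, mul_pow]

theorem alg_root (v y : F) (hv : v ≠ 0) {p d : ℕ} (hcop : Nat.Coprime d p) (h : v ^ d = y ^ p) :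
    ∃ w : F, v = w ^ p := by
  have hb := Nat.gcd_eq_gcd_ab d p
  rw [hcop] at hb
  refine ⟨y ^ (Nat.gcdA d p) * v ^ (Nat.gcdB d p), ?_⟩
  have h1 : v = v ^ ((d : ℤ) * Nat.gcdA d p + (p : ℤ) * Nat.gcdB d p) := by
    rw [← hb]; simp
  rw [zpow_add₀ hv, zpow_mul, zpow_natCast, h, zpow_mul, zpow_natCast] at h1
  rw [mul_pow, ← zpow_natCast (y ^ (Nat.gcdA d p)) p, ← zpow_mul, mul_comm (Nat.gcdA d p) (p : ℤ),
    zpow_mul, zpow_natCast, ← zpow_natCast (v ^ (Nat.gcdB d p)) p, ← zpow_mul,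
    mul_comm (Nat.gcdB d p) (p : ℤ), zpow_mul, zpow_natCast]
  exact h1

end Alg

variable (A : ValuationSubring Kbar)

section Hecke

variable (M l : ℕ) [NeZero M] [NeZero l] (hM : ((M : ℕ) : kk A) ≠ 0)
  (hMl : ((M * l : ℕ) : kk A) ≠ 0)

theorem alpha_mem_RM (y : FN M) (hy : y ∈ (Conc.RM A M hM).O) :
    heckeAlphaBar Kbar M l y ∈ (Conc.RM A (M * l) hMl).O := by
  rw [Conc.mem_RM_O_iff] at hy ⊢
  rw [coe_heckeAlphaBar]
  exact hy

theorem red_alpha_RM (y : FN M) (hy : y ∈ (Conc.RM A M hM).O) :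
    (Conc.RM A (M * l) hMl).red (heckeAlphaBar Kbar M l y) =
      (towerAlgebra (kk A) (dvd_mul_right M l)).algebraMap ((Conc.RM A M hM).red y) := by
  apply Subtype.ext
  have hy0 : (y : LaurentSeries Kbar) ∈ gRing A := (Conc.mem_RM_O_iff A M hM y).1 hy
  have hy' : ((heckeAlphaBar Kbar M l y : FN (M * l)) : LaurentSeries Kbar) ∈ gRing A := by
    rw [coe_heckeAlphaBar]; exact hy0
  have e : (⟨((heckeAlphaBar Kbar M l y : FN (M * l)) : LaurentSeries Kbar), hy'⟩ :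
      ↥(gRing A)) = ⟨(y : LaurentSeries Kbar), hy0⟩ := mk_gRing_congr A _ _ _ _ (coe_heckeAlphaBar M l y)
  rw [Conc.coe_RM_red A (M * l) hMl _ hy', coe_towerAlgebraMap, Conc.coe_RM_red A M hM y hy0, e]

theorem beta_mem_gRing (u : FN M) (hu : u ∈ (Conc.RM A M hM).O) :
    ((heckeBetaBar Kbar M l u : FN (M * l)) : LaurentSeries Kbar) ∈ gRing A := by
  have hu' : (u : LaurentSeries Kbar) ∈ gRing A := (Conc.mem_RM_O_iff A M hM u).1 hu
  rw [coe_heckeBetaBar]
  exact Conc.qExpand_mem_gRing A l hu'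

theorem red_beta_RM (u : FN M) (hu : u ∈ (Conc.RM A M hM).O) :
    (Conc.RM A (M * l) hMl).red (heckeBetaBar Kbar M l u) =
      betaBar (kk A) M l ((Conc.RM A M hM).red u) := by
  have hu' : (u : LaurentSeries Kbar) ∈ gRing A := (Conc.mem_RM_O_iff A M hM u).1 hu
  apply Subtype.ext
  rw [Conc.coe_RM_red A (M * l) hMl _ (beta_mem_gRing A M l hM u hu), coe_betaBar,
    Conc.coe_RM_red A M hM u hu', ← Conc.gRes_qExpand A l hu']
  exact congrArg (gRes A) (mk_gRing_congr A _ _ _ _ (coe_heckeBetaBar M l u))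

include hMl in
/-- **The Gauss reduction of level `M` commutes with `T_l`.** -/
theorem red_heckeNorm_TBar_M (hl : l.Prime) (hlM : ¬ l ∣ M) (u : FN M)
    (hu : u ∈ (Conc.RM A M hM).O) :
    heckeNorm Kbar M l u ∈ (Conc.RM A M hM).O ∧
      (Conc.RM A M hM).red (heckeNorm Kbar M l u) = TBar (kk A) M l ((Conc.RM A M hM).red u) := by
  letI := algebraAlong (heckeAlphaBar Kbar M l)
  haveI := isScalarTower_along (heckeAlphaBar Kbar M l)
  haveI : FiniteDimensional (FN M) (FN (M * l)) := DegreeAlpha.finiteDimensional_alpha M l hl hlM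
  letI := towerAlgebra (kk A) (dvd_mul_right M l)
  obtain ⟨-, -, h3, -, h5⟩ := tower_spec (kk A) (dvd_mul_right M l) hMl
  have h2 : dedekindPsi (M * l) = (l + 1) * dedekindPsi M := by
    rw [mul_comm M l, Fermat.Agent.Lib.Gamma0Count.dedekindPsi_prime_mul_of_not_dvd hl (NeZero.ne M)
      hlM]
  have hdeg := Nat.eq_of_mul_eq_mul_right (DegreeAlpha.dedekindPsi_pos M) (h5.trans h2)
  have key := red_norm_single (Conc.RM A M hM) (Conc.RM A (M * l) hMl)
    (alpha_mem_RM A M l hM hMl) (red_alpha_RM A M l hM hMl)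
    (hdeg.trans (DegreeAlpha.finrank_alpha M l hl hlM).symm)
    (heckeBetaBar Kbar M l u)
    ((Conc.mem_RM_O_iff A (M * l) hMl _).2 (beta_mem_gRing A M l hM u hu))
  refine ⟨key.1, ?_⟩
  rw [TBar_apply, ← red_beta_RM A M l hM hMl u hu]
  exact key.2

end Hecke


end Fermat.Agent.S43.GA
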