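import Fermat.Agent.MR.Glue.BLREll

/-!
# S43 / GA / SignAbs : a Frobenius at `q ≠ p` which acts on `E[p]` as a scalar `c` has `c ^ 2 ≡ q (mod p)`

No Weil pairing: every `g ∈ G_ℚ` satisfies `g ^ 2 - a g + χ_p(g) = 0` on `E[p]` (Eichler--Shimura/Frobenius relation + Chebotarev:
`MR.Glue.common_quad`), `E[p]` is irreducible and not cyclic, so some `h` is not a scalar; compare the relations of `h` and `g h`.

* `det_of_scalar`        : abstract form;
* `exists_not_scalar`    : an irreducible non cyclic module has a non scalar element;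
* `sq_of_frob_scalar`    : for `FrobMod`s;
* `sq_of_frob_scalar_Ep` : for `E[p]`, `E` the Frey curve.
-/

set_option autoImplicit false

namespace Fermat.Agent.S43.GA

open Fermat.Agent.GAL Fermat.Agent.MR.Glue Fermat.Agent.MR.E
open WeierstrassCurve WeierstrassCurve.Affine WeierstrassCurve.Affine.Point

section Abs

variable {G k E : Type*} [Group G] [Field k] [AddCommGroup E] [Module k E]

/-- if all `g` satisfy a quadratic relation with constant term `d g`, `d` a character, and some `h` is not a scalar, then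
`d g = c ^ 2` for every `g` acting as the scalar `c`. -/
theorem det_of_scalar [Nontrivial E] (ρ : G →* Module.End k E) (d : G →* k)
    (hq : ∀ g, ∃ a : k, ρ g * ρ g - a • ρ g + d g • (1 : Module.End k E) = 0)
    (h : G) (hh : ∀ r : k, ρ h ≠ r • 1) (g : G) (c : k) (hg : ρ g = c • 1) : d g = c * c := by
  obtain ⟨a, ha⟩ := hq h
  obtain ⟨a', ha'⟩ := hq (g * h)
  rw [map_mul, map_mul, hg, smul_mul_assoc, one_mul, smul_mul_assoc, mul_smul_comm, smul_smul,
    smul_smul] at ha'
  have hdh : d h ≠ 0 := by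
    intro h0
    have : d h * d h⁻¹ = 1 := by rw [← map_mul, mul_inv_cancel, map_one]
    rw [h0, zero_mul] at this
    exact zero_ne_one this
  have h1 : (c * c * a - a' * c) • ρ h = ((c * c - d g) * d h) • (1 : Module.End k E) := by
    have e : (c * c * a - a' * c) • ρ h - ((c * c - d g) * d h) • (1 : Module.End k E) =
        ((c * c) • (ρ h * ρ h) - (a' * c) • ρ h + (d g * d h) • (1 : Module.End k E))
          - (c * c) • (ρ h * ρ h - a • ρ h + d h • (1 : Module.End k E)) := by
      simp only [sub_smul, smul_sub, smul_add, smul_smul, sub_mul]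
      abel
    rw [← sub_eq_zero, e, ha, ha', smul_zero, sub_zero]
  have h3 : c * c * a - a' * c = 0 := by
    by_contra h3
    apply hh ((c * c * a - a' * c)⁻¹ * ((c * c - d g) * d h))
    rw [mul_smul, ← h1, smul_smul, inv_mul_cancel₀ h3, one_smul]
  rw [h3, zero_smul] at h1
  have h4 := (smul_eq_zero.mp h1.symm).resolve_right one_ne_zero
  have h5 := (mul_eq_zero.mp h4).resolve_right hdh
  exact (sub_eq_zero.mp h5).symm

end Abs

section GQ

variable {p : ℕ} [Fact p.Prime]

/-- an irreducible non cyclic `G_ℚ`-module has an element which does not act as a scalar. -/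
theorem exists_not_scalar {E : Type*} [AddCommGroup E] [DistribMulAction GQ E]
    (hirr : ∀ U : AddSubgroup E, (∀ σ : GQ, ∀ x ∈ U, σ • x ∈ U) → U = ⊥ ∨ U = ⊤)
    (hdim : ∀ v : E, ∃ u : E, ∀ n : ℤ, u ≠ n • v) :
    ∃ h : GQ, ∀ n : ℤ, ∃ e : E, h • e ≠ n • e := by
  by_contra hcon
  push Not at hcon
  obtain ⟨v, hv⟩ := hdim 0
  have hv0 : v ≠ 0 := fun h => hv 0 (by rw [h, smul_zero])
  rcases hirr (AddSubgroup.zmultiples v) (fun σ x hx => by
      obtain ⟨n, hn⟩ := hcon σ
      rw [hn x]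
      exact AddSubgroup.zsmul_mem _ hx n) with h | h
  · exact hv0 (AddSubgroup.zmultiples_eq_bot.mp h)
  · obtain ⟨u, hu⟩ := hdim v
    have : u ∈ AddSubgroup.zmultiples v := by rw [h]; trivial
    obtain ⟨n, hn⟩ := AddSubgroup.mem_zmultiples_iff.mp this
    exact hu n hn.symm

/-- a Frobenius at `q ≠ p` acting as the scalar `c` on an irreducible non cyclic `FrobMod` : `c ^ 2 ≡ q`. -/
theorem sq_of_frob_scalar (hFD : FrobeniusDensity) {a : ℕ → ℤ} {B : Finset ℕ}
    {E : Type*} [AddCommGroup E] [DistribMulAction GQ E] (hE : FrobMod p a B E)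
    (hirr : ∀ U : AddSubgroup E, (∀ σ : GQ, ∀ x ∈ U, σ • x ∈ U) → U = ⊥ ∨ U = ⊤)
    (hdim : ∀ v : E, ∃ u : E, ∀ n : ℤ, u ≠ n • v)
    {q : ℕ} (hq : q.Prime) (hqp : q ≠ p) {A : ValuationSubring (AlgebraicClosure ℚ)}
    (hA : A.LiesOverPrime q) {φ : GQ} (hφ : A.IsFrobeniusAt φ q) (c : ℤ)
    (hc : ∀ e : E, φ • e = c • e) : (p : ℤ) ∣ c * c - q := by
  let _ : Module (ZMod p) E := AddCommGroup.zmodModule hE.tors
  have hnt : Nontrivial E := by
    obtain ⟨u, hu⟩ := hdim 0
    exact ⟨u, 0, fun h => hu 0 (by rw [h, smul_zero])⟩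
  obtain ⟨h, hh⟩ := exists_not_scalar hirr hdim
  have key := det_of_scalar (repOf p E) (dP p)
    (fun g => (common_quad hFD hE hE g).imp fun _ h => h.1) h (by
      intro r hr
      obtain ⟨n, rfl⟩ := ZMod.intCast_surjective r
      obtain ⟨e, he⟩ := hh n
      apply he
      have := congrArg (fun f : Module.End (ZMod p) E => f e) hr
      simp only [repOf_apply, LinearMap.smul_apply, Module.End.one_apply] at this
      rw [this, Int.cast_smul_eq_zsmul]) φ (c : ZMod p) (by
      apply LinearMap.ext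
      intro e
      simp only [repOf_apply, LinearMap.smul_apply, Module.End.one_apply]
      rw [hc e, Int.cast_smul_eq_zsmul])
  have h1 : dP p φ = ((q : ℕ) : ZMod p) := Cyclo.epsK_frobenius p (ZMod p) hq hqp hA hφ
  rw [h1] at key
  rw [← ZMod.intCast_zmod_eq_zero_iff_dvd]
  push_cast
  rw [key, sub_self]

end GQ

/-- **`E[p]`** : a Frobenius at `q ≠ p` acting as the scalar `c` has `c ^ 2 ≡ q (mod p)`. -/
theorem sq_of_frob_scalar_Ep (P : FreyPackage)
    (hirr : GaloisRepIsIrreducible (K := AlgebraicClosure ℚ) ℚ P.freyCurve P.p)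
    (W : WeierstrassCurve ℤ) (hW : W.IsIntegralModelOf P.freyCurve)
    {q : ℕ} (hq : q.Prime) (hqp : q ≠ P.p) {A : ValuationSubring (AlgebraicClosure ℚ)}
    (hA : A.LiesOverPrime q) {φ : GQ} (hφ : A.IsFrobeniusAt φ q) (c : ℤ)
    (hc : ∀ e : Ep P, φ • e = c • e) : (P.p : ℤ) ∣ c * c - q := by
  have : Fact P.p.Prime := ⟨P.pp⟩
  obtain ⟨S, hS⟩ := frobMod_Ep P W hW
  exact sq_of_frob_scalar Fermat.Agent.Lib.FrobDensity.gal_frobeniusDensity hS (irr_Ep P hirr)
    (dim_Ep P) hq hqp hA hφ c hc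

end Fermat.Agent.S43.GA
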