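import Fermat.Agent.S43.GA.Export
import Fermat.Agent.S43.BigImg.Scalar
import Fermat.Agent.S43.Final.Top
import Fermat.Agent.S05

/-!
# S43 / GA / World : (GA-K) and MAZ in the shapes consumed by `Top0.LevelData`, `Geo`, `Core.false_of_forall_algOut`

* `frobSign P q : ℤ` : THE sign `ε_q` (defined from `E[p]` only, hence independent of the level);
* `FrobSignOK P q`   : `ε_q = ± 1`, `p ∣ q - 1`, every Frobenius element at every place over `q` acts on `E[p]` as `ε_q`;
* `gaK_n`            : `gaK` in transport-proof form (`n = M * q`), without `w_q`;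
* `frobSignOK_of_level` : `FrobSignOK P q` from ONE level `n = M * q` (`4 ∣ M`, `θ` occurs at level `n`, not at level `M`);
* `ga_field`         : the field `ga` of `Top0.LevelData` at EVERY such level `n`, with `eps q = frobSign P q`;
* `ga_dec_field`     : the same for all elements of the decomposition group;
* `scalarAt_of_frobSignOK`, `maz_world` : **MAZ** : `GWS.ScalarAt (T.matRep (rho P)) q` and `p ∣ q - 1`.
-/

set_option autoImplicit false
set_option linter.unusedSectionVars false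
set_option linter.style.haveILetI false

noncomputable section

namespace Fermat.Agent.S43.GA

open AlgebraicCurve ModularCurve Fermat.Agent.S24 Fermat.Agent.GAL Fermat.Agent.DR Fermat.Agent.MR.Glue
  Fermat.Agent.MR.E
open WeierstrassCurve WeierstrassCurve.Affine WeierstrassCurve.Affine.Point

/-- two signs which agree on `E[p]` are equal. -/
theorem sign_unique (P : FreyPackage) {ε ε' : ℤ} (hε : ε = 1 ∨ ε = -1) (hε' : ε' = 1 ∨ ε' = -1)
    (h : ∀ e : Ep P, ε • e = ε' • e) : ε = ε' := by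
  have h1 : (P.p : ℤ) ∣ ε - ε' := by
    apply dvd_of_zsmul_Ep
    intro e
    rw [sub_smul, h e, sub_self]
  have h5 : (5 : ℤ) ≤ P.p := by exact_mod_cast P.hp5
  rcases hε with rfl | rfl <;> rcases hε' with rfl | rfl
  · rfl
  · have := Int.le_of_dvd (by norm_num) h1
    omega
  · have h2 : (P.p : ℤ) ∣ 2 := by
      have := (dvd_neg).mpr h1
      norm_num at this
      exact this
    have := Int.le_of_dvd (by norm_num) h2
    omega
  · rfl

/-- the property characterising the sign. -/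
def IsFrobSign (P : FreyPackage) (q : ℕ) (ε : ℤ) : Prop :=
  (ε = 1 ∨ ε = -1) ∧ ∀ A : ValuationSubring Kbar, A.LiesOverPrime q → ∀ φ : GQ,
    A.IsFrobeniusAt φ q → ∀ e : Ep P, φ • e = ε • e

open Classical in
/-- **The sign `ε_q`** : the scalar by which the Frobenius elements at `q` act on `E[p]` (if there is one; `1` otherwise). -/
def frobSign (P : FreyPackage) (q : ℕ) : ℤ :=
  if h : ∃ ε : ℤ, IsFrobSign P q ε then h.choose else 1

/-- the sign is what it should be, and `q ≡ 1 (mod p)`. -/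
def FrobSignOK (P : FreyPackage) (q : ℕ) : Prop :=
  IsFrobSign P q (frobSign P q) ∧ (P.p : ℤ) ∣ (q : ℤ) - 1

theorem isFrobSign_frobSign {P : FreyPackage} {q : ℕ} {ε : ℤ} (h : IsFrobSign P q ε) :
    IsFrobSign P q (frobSign P q) := by
  have hex : ∃ ε : ℤ, IsFrobSign P q ε := ⟨ε, h⟩
  rw [frobSign, dif_pos hex]
  exact hex.choose_spec

theorem frobSign_eq {P : FreyPackage} {q : ℕ} (hq : q.Prime) {ε : ℤ} (h : IsFrobSign P q ε) :
    frobSign P q = ε := by
  have h' := isFrobSign_frobSign h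
  obtain ⟨A, φ, hA, hφ⟩ := Fermat.Agent.S41.Dual.exists_frob hq
  exact sign_unique P h'.1 h.1 fun e => (h'.2 A hA φ hφ e).symm.trans (h.2 A hA φ hφ e)

variable (P : FreyPackage)
  (hirr : GaloisRepIsIrreducible (K := AlgebraicClosure ℚ) ℚ P.freyCurve P.p)
  (W : WeierstrassCurve ℤ) (hW : W.IsIntegralModelOf P.freyCurve) (S : Finset ℕ) (hpS : P.p ∈ S)

include hirr hW hpS in
/-- **(GA-K)** in transport-proof form. -/
theorem gaK_n {n M q : ℕ} [NeZero n] [NeZero M] [NeZero q] (hn : n = M * q) (hq : q.Prime)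
    (hq2 : q ≠ 2) (hqp : q ≠ P.p) (hqM : ¬ q ∣ M) (h4 : 4 ∣ M)
    (hH : eigenKV M P.p (insert q S) W.apOfModel = ⊥)
    (hocc : eigenKV n P.p S W.apOfModel ≠ ⊥) :
    ∃ ε : ℤ, IsFrobSign P q ε ∧ (P.p : ℤ) ∣ (q : ℤ) - 1 ∧
      ∀ A : ValuationSubring Kbar, A.LiesOverPrime q →
        (∀ φ : GQ, A.IsFrobeniusAt φ q → ∀ x ∈ gEigenKV n P.p S W.apOfModel,
            (∀ τ ∈ A.inertiaSubgroupIn ℚ, τ • x = x) → φ • x = ε • x) ∧
        ∀ d ∈ A.decompositionSubgroup ℚ, ∃ j : ℕ,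
          (∀ e : Ep P, d • e = (ε ^ j) • e) ∧
          ∀ x ∈ gEigenKV n P.p S W.apOfModel,
            (∀ τ ∈ A.inertiaSubgroupIn ℚ, τ • x = x) → d • x = (ε ^ j) • x := by
  subst hn
  obtain ⟨ε, hε, hq1, -, h⟩ := gaK P hirr W hW S hpS M q hq hqM h4 hqp
    (Fermat.Agent.S05.result P hq hq2 hqp) hH hocc
  exact ⟨ε, ⟨hε, fun A hA φ hφ => ((h A hA).1 φ hφ).1⟩, hq1, fun A hA =>
    ⟨fun φ hφ => ((h A hA).1 φ hφ).2, (h A hA).2⟩⟩

include hirr hW hpS in
/-- the sign is OK as soon as `θ` is new at `q` at ONE neat level. -/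
theorem frobSignOK_of_level {n M q : ℕ} [NeZero n] [NeZero M] [NeZero q] (hn : n = M * q)
    (hq : q.Prime) (hq2 : q ≠ 2) (hqp : q ≠ P.p) (hqM : ¬ q ∣ M) (h4 : 4 ∣ M)
    (hH : eigenKV M P.p (insert q S) W.apOfModel = ⊥)
    (hocc : eigenKV n P.p S W.apOfModel ≠ ⊥) : FrobSignOK P q := by
  obtain ⟨ε, hε, hq1, -⟩ := gaK_n P hirr W hW S hpS hn hq hq2 hqp hqM h4 hH hocc
  exact ⟨isFrobSign_frobSign hε, hq1⟩

include hirr hW hpS in
/-- **The field `ga` of `Top0.LevelData`**, with `eps q = frobSign P q` (independent of the level). -/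
theorem ga_field {n M q : ℕ} [NeZero n] [NeZero M] [NeZero q] (hn : n = M * q) (hq : q.Prime)
    (hq2 : q ≠ 2) (hqp : q ≠ P.p) (hqM : ¬ q ∣ M) (h4 : 4 ∣ M)
    (hH : eigenKV M P.p (insert q S) W.apOfModel = ⊥)
    (A : ValuationSubring Kbar) (hA : A.LiesOverPrime q)
    (x : KV Kbar (FN n) P.p) (hx : x ∈ gEigenKV n P.p S W.apOfModel)
    (hI : ∀ τ ∈ A.inertiaSubgroupIn ℚ, τ • x = x) (φ : GQ) (hφ : A.IsFrobeniusAt φ q) :
    φ • x = frobSign P q • x := by
  haveI : NeZero P.p := ⟨P.pp.ne_zero⟩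
  by_cases hocc : eigenKV n P.p S W.apOfModel = ⊥
  · -- then the generalised eigenspace vanishes
    have hx0 : x = 0 := by
      by_contra hx0
      have hne : gSub n P.p S W.apOfModel ≠ ⊥ := by
        intro hb
        have := mem_gSub.2 hx
        rw [hb, AddSubgroup.mem_bot] at this
        exact hx0 this
      obtain ⟨z, -, hz0, hz⟩ := gSub_socle (gSub n P.p S W.apOfModel) le_rfl hne
        (fun ℓ _ h1 h2 _ y hy => gSub_hecke P.pp.ne_zero ℓ h1 h2 hy)
      rw [hocc, AddSubgroup.mem_bot] at hz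
      exact hz0 hz
    rw [hx0, smul_zero, smul_zero]
  · obtain ⟨ε, hε, -, h⟩ := gaK_n P hirr W hW S hpS hn hq hq2 hqp hqM h4 hH hocc
    rw [frobSign_eq hq hε]
    exact (h A hA).1 φ hφ x hx hI

include hirr hW hpS in
/-- the same for the whole decomposition group: `d` acts on `E[p]` and on the inertia invariants by the same power of the sign. -/
theorem ga_dec_field {n M q : ℕ} [NeZero n] [NeZero M] [NeZero q] (hn : n = M * q) (hq : q.Prime)
    (hq2 : q ≠ 2) (hqp : q ≠ P.p) (hqM : ¬ q ∣ M) (h4 : 4 ∣ M)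
    (hH : eigenKV M P.p (insert q S) W.apOfModel = ⊥)
    (hocc : eigenKV n P.p S W.apOfModel ≠ ⊥)
    (A : ValuationSubring Kbar) (hA : A.LiesOverPrime q) (d : GQ)
    (hd : d ∈ A.decompositionSubgroup ℚ) :
    ∃ j : ℕ, (∀ e : Ep P, d • e = (frobSign P q ^ j) • e) ∧
      ∀ x ∈ gEigenKV n P.p S W.apOfModel,
        (∀ τ ∈ A.inertiaSubgroupIn ℚ, τ • x = x) → d • x = (frobSign P q ^ j) • x := by
  obtain ⟨ε, hε, -, h⟩ := gaK_n P hirr W hW S hpS hn hq hq2 hqp hqM h4 hH hocc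
  rw [frobSign_eq hq hε]
  exact (h A hA).2 d hd

/-- **MAZ**, from the sign. -/
theorem scalarAt_of_frobSignOK {q : ℕ} (hq : q.Prime) (hq2 : q ≠ 2) (hqp : q ≠ P.p)
    (h : FrobSignOK P q) : GWS.ScalarAt (S56.T.matRep (BigImg.rho P)) q := by
  obtain ⟨A, φ, hA, hφ⟩ := Fermat.Agent.S41.Dual.exists_frob hq
  refine BigImg.scalarAt_of_frob P hq (Fermat.Agent.S05.result P hq hq2 hqp) A hA φ hφ
    ((frobSign P q : ℤ) : ZMod P.p) (fun x => ?_)
  rw [Int.cast_smul_eq_zsmul]
  exact h.1.2 A hA φ hφ x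

include hirr in
/-- **MAZ in the hypothetical world** : `θ` occurs at the level `n = M q`, not at the level `M` (`4 ∣ M`). -/
theorem maz_world {n M q : ℕ} [NeZero n] [NeZero M] [NeZero q] (hn : n = M * q) (hq : q.Prime)
    (hq2 : q ≠ 2) (hqp : q ≠ P.p) (hqM : ¬ q ∣ M) (h4 : 4 ∣ M) (hocc : Occ P n) (hH : ¬ Occ P M) :
    FrobSignOK P q ∧ GWS.ScalarAt (S56.T.matRep (BigImg.rho P)) q := by
  obtain ⟨W, S, hW, hne⟩ := hocc
  have hne' : eigenKV n P.p (insert P.p S) W.apOfModel ≠ ⊥ := by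
    intro hbot
    apply hne
    rw [eq_bot_iff, ← hbot]
    exact eigenKV_mono (Finset.subset_insert _ _) _
  have hH' : eigenKV M P.p (insert q (insert P.p S)) W.apOfModel = ⊥ := by
    by_contra h
    exact hH ⟨W, _, hW, h⟩
  have h1 := frobSignOK_of_level P hirr W hW (insert P.p S) (Finset.mem_insert_self _ _) hn hq hq2
    hqp hqM h4 hH' hne'
  exact ⟨h1, scalarAt_of_frobSignOK P hq hq2 hqp h1⟩

end Fermat.Agent.S43.GA
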